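import Fermat.Agent.S36R.Val.Defs
import Fermat.Agent.S36R.NormC.Setup

/-!
# S36R/Val/Bridge : `Val.Data` versus the official `NormC.Setup`

`Data.ofSetup S : Data A M q`, `(ofSetup S).phi i = S.e i`, `(ofSetup S).Wv i = S.W i`, and the table
of the expansions of `pi0 u, pi1 u, pi2 u` in terms of `S.e0, S.e1, S.e2`.
-/

set_option autoImplicit false

noncomputable section

namespace Fermat.Agent.S36R.Val

open ModularCurve Fermat.Agent.S24 Fermat.Agent.GAL Fermat.Agent.GAL.Gauss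
  Fermat.Agent.S36.StepA Fermat.Agent.S36R.K0L Fermat.Agent.S36R.NormC

variable {A : ValuationSubring Kbar} {M q : ℕ} [NeZero M] [NeZero q]

/-- the internal data of block R-VAL attached to the official `Setup`. -/
def Data.ofSetup (S : Setup A M q) : Data A M q where
  hq := S.hq
  hqM := S.hqM
  hA := S.hA
  ζ := S.ζ
  hζ := S.hζ
  ι := S.ι
  hι := S.hι
  W := S.W2
  hW := S.hW2

variable (S : Setup A M q)

theorem bc0_eq (N : ℕ) (x : F0 A N) : Val.bc0 A N x = Fermat.Agent.S36R.bc0 A N x := rfl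

theorem ofSetup_phi0 (x : S.F) : (Data.ofSetup S).phi 0 x = S.e0 x := by
  rw [Data.phi_apply, Data.Phi_zero, S.e0_apply, bc0_eq]

theorem ofSetup_phi1 (x : S.F) : (Data.ofSetup S).phi 1 x = S.e1 x := by
  rw [Data.phi_apply, Data.Phi_one, S.e1_apply, bc0_eq]
  rfl

theorem ofSetup_phi2 (x : S.F) : (Data.ofSetup S).phi 2 x = S.e2 x := by
  rw [Data.phi_apply, Data.Phi_two, S.e2_apply, bc0_eq]
  rfl

theorem ofSetup_Wv (i : Fin 3) : (Data.ofSetup S).Wv i = S.W i := by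
  ext x
  fin_cases i
  · show (Data.ofSetup S).phi 0 x ∈ gRing A ↔ S.e0 x ∈ gRing A
    rw [ofSetup_phi0]
  · show (Data.ofSetup S).phi 1 x ∈ gRing A ↔ S.e1 x ∈ gRing A
    rw [ofSetup_phi1]
  · show (Data.ofSetup S).phi 2 x ∈ gRing A ↔ S.e2 x ∈ gRing A
    rw [ofSetup_phi2]

/-! ### the table, for `S.e0, S.e1, S.e2` -/

theorem e0_pi0 (u : F0 A M) : S.e0 (pi0 A M q u) = hat A M u := by
  rw [← ofSetup_phi0, Data.phi0_pi0]

theorem e0_pi1 (u : F0 A M) : S.e0 (pi1 A M q u) = qExpand Kbar q (hat A M u) := by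
  rw [← ofSetup_phi0, Data.phi0_pi1]

theorem e0_pi2 (u : F0 A M) :
    S.e0 (pi2 A M q u) = qExpand Kbar q (qExpand Kbar q (hat A M u)) := by
  rw [← ofSetup_phi0, Data.phi0_pi2]

theorem e1_pi0 (u : F0 A M) : S.e1 (pi0 A M q u) = hat A M u := by
  rw [← ofSetup_phi1, Data.phi1_pi0]

theorem e1_pi1 (u : F0 A M) : S.e1 (pi1 A M q u) = qExpand Kbar q (hat A M u) := by
  rw [← ofSetup_phi1, Data.phi1_pi1]

theorem e1_pi2 (u : F0 A M) :
    S.e1 (pi2 A M q u) = Fermat.Agent.S24.twist S.ζ (S.hζ.ne_zero S.hq.ne_zero) (hat A M u) := by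
  rw [← ofSetup_phi1, Data.phi1_pi2]
  rfl

theorem e2_pi0 (u : F0 A M) :
    S.e2 (pi0 A M q u) = qExpand Kbar q (qExpand Kbar q (hat A M u)) := by
  rw [← ofSetup_phi2, Data.phi2_pi0]

theorem e2_pi1 (u : F0 A M) : S.e2 (pi1 A M q u) = qExpand Kbar q (hat A M u) := by
  rw [← ofSetup_phi2, Data.phi2_pi1]

theorem e2_pi2 (u : F0 A M) : S.e2 (pi2 A M q u) = hat A M u := by
  rw [← ofSetup_phi2, Data.phi2_pi2]

end Fermat.Agent.S36R.Val
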