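import Fermat.Agent.S36R.Val.Main
import Fermat.Agent.S36R.AA.Deliver
import Fermat.Agent.S36R.AA.ForKS

/-!
# S36R/Val/Deliver : `AA.ResOK S` from `Val/Main.lean`, and the AA deliverables without the hypothesis (V3)

(The VAL fields themselves are in `Val/Main.lean`, helper75.)
For `S : NormC.Setup A M q`, `hM : (M : k) ≠ 0`, `hg : GoodRed A M`:
`AA.vr₀, AA.vr₁, AA.resA', AA.resB'` = the fields `PointOK.vr` (on `R₀`, at the cusps of `R₁`), `TripleOK.resA`, `TripleOK.resB`.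
-/

set_option autoImplicit false
set_option linter.unusedSectionVars false

noncomputable section

namespace Fermat.Agent.S36R.AA

open ModularCurve Fermat.Agent.S24 Fermat.Agent.GAL Fermat.Agent.GAL.Gauss
  Fermat.Agent.DR.Conc Fermat.Agent.S36R.NormC

variable {A : ValuationSubring Kbar} {M q : ℕ} [NeZero M] [NeZero q] (S : Setup A M q)

/-- **(V3).** -/
theorem resOK : ResOK S := ⟨Val.res0 S, Val.res1 S, Val.res2 S⟩

include S in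
/-- `(M : k) ≠ 0`. -/
theorem natCast_M_ne_zero : ((M : ℕ) : IsLocalRing.ResidueField ↥A) ≠ 0 := by
  have := Hecke.charP_residueField A S.hq S.hA
  intro h
  exact S.hqM ((CharP.cast_eq_zero_iff (IsLocalRing.ResidueField ↥A) q M).1 h)

variable (hg : GoodRed A M)

include hg

/-- **`PointOK.vr` at every prime of `R₀`.** -/
theorem vr₀ (𝔫 : Ideal (Bridge.RR (O0 A) (cc S))) [𝔫.IsPrime] (i : Fin 3)
    (ht : Inj.Thru S.lvl.W 𝔫 i) (z : S.F) (hz : z ∈ S.lvl.W i) :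
    (∃ a ∈ Inj.locAt 𝔫, Cg (S.lvl.W i) z a) ∨ (∃ a ∈ Inj.locAt 𝔫, Cg (S.lvl.W i) z⁻¹ a) :=
  pointOK_vr_R0 (natCast_M_ne_zero S) hg (resOK S) 𝔫 i ht z hz

/-- **`PointOK.vr` at every prime of `R₁` containing `c⁻¹`.** -/
theorem vr₁ (𝔫 : Ideal (Bridge.RR (O0 A) (cc S)⁻¹)) [𝔫.IsPrime]
    (hc𝔫 : ∀ x : Bridge.RR (O0 A) (cc S)⁻¹, (x : S.F) = (cc S)⁻¹ → x ∈ 𝔫) (i : Fin 3)
    (ht : Inj.Thru S.lvl.W 𝔫 i) (z : S.F) (hz : z ∈ S.lvl.W i) :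
    (∃ a ∈ Inj.locAt 𝔫, Cg (S.lvl.W i) z a) ∨ (∃ a ∈ Inj.locAt 𝔫, Cg (S.lvl.W i) z⁻¹ a) :=
  pointOK_vr_R1 (natCast_M_ne_zero S) hg (resOK S) 𝔫 hc𝔫 i ht z hz

/-- **`TripleOK.resA`.** -/
theorem resA' (i : Fin 3) (hi : i ≠ 2) (x : Bridge.RR (O0 A) (cc S)) :
    ∃ w : S.FA, S.lvl.al w ∈ Bridge.RR (O0 A) (cc S) ∧ Cg (S.lvl.W i) x (S.lvl.al w) :=
  tripleOK_resA (natCast_M_ne_zero S) hg (resOK S) i hi x

/-- **`TripleOK.resB`.** -/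
theorem resB' (i : Fin 3) (hi : i ≠ 0) (x : Bridge.RR (O0 A) (cc S)) :
    ∃ w : S.FA, S.lvl.be w ∈ Bridge.RR (O0 A) (cc S) ∧ Cg (S.lvl.W i) x (S.lvl.be w) :=
  tripleOK_resB (natCast_M_ne_zero S) hg (resOK S) i hi x

end Fermat.Agent.S36R.AA
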