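import Fermat.Agent.S36R.NormC.Good
import Fermat.Agent.S36R.K0.GaussK0

/-!
# S36, route R, block VAL (GOOD-SMALL): the fields `eW0, eW2, eV, qV, vert.pi_lt, vert.pi_ne` of `Lvl.Good`
for the concrete data `S.lvl`.

Everything follows from FACT D (`gauss_K0`: the Gauss norm of a nonzero function with coefficients in
`K0 A` lies in `|q|^ℤ`) and from the fact that `w_{q²}`, `w_q` commute with the Galois action.
-/

set_option autoImplicit false
set_option linter.unusedSectionVars false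

noncomputable section

namespace Fermat.Agent.S36R.NormC

open AlgebraicCurve ModularCurve Fermat.Agent.S24 Fermat.Agent.GAL Fermat.Agent.GAL.Gauss
  Fermat.Agent.DR.Conc Fermat.Agent.S36.StepA Fermat.Agent.GAL.NormFormula

variable {A : ValuationSubring Kbar} {M q : ℕ} [NeZero M] [NeZero q] (S : Setup A M q)

/-- abstract form: an expansion `φ` whose values are expansions at `∞` of functions over `K0`. -/
theorem exists_isU_of_bc0 (hq : q.Prime) (hA : A.LiesOverPrime q) {F : Type*} [Field F]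
    (φ : F →+* LaurentSeries Kbar) (h : ∀ y : F, y ≠ 0 → Normable A (φ y)) (N : ℕ)
    (hφ : ∀ z : F, ∃ y : FF (K0 A) N, φ z = ((bc0 A N y : FF Kbar N) : LaurentSeries Kbar))
    (z : F) (hz : z ≠ 0) : ∃ x : ℤ, IsU (gVS A φ h) (z / (q : F) ^ x) := by
  obtain ⟨y, hy⟩ := hφ z
  have hy0 : y ≠ 0 := by
    rintro rfl
    rw [map_zero] at hy
    exact hz ((map_eq_zero φ).1 hy)
  obtain ⟨n, hn, hr⟩ := gauss_K0 hq hA N y hy0
  obtain ⟨r, hr0, hred⟩ : ∃ r, r ≠ 0 ∧ Red A (HahnSeries.C ((q : Kbar) ^ n) *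
      ((bc0 A N y : FF Kbar N) : LaurentSeries Kbar)) r := ⟨_, hr, hn, rfl⟩
  have e : φ (z / (q : F) ^ (-n)) =
      HahnSeries.C ((q : Kbar) ^ n) * ((bc0 A N y : FF Kbar N) : LaurentSeries Kbar) := by
    rw [map_div₀, map_zpow₀, map_natCast, hy, map_zpow₀, map_natCast, zpow_neg, div_inv_eq_mul,
      mul_comm]
  rw [← e] at hred
  exact ⟨-n, isU_gVS_iff.2 ⟨r, hr0, hred⟩⟩

/-- `q` is a non unit. -/
theorem gVS_natCast_lt_one (hA : A.LiesOverPrime q) {F : Type*} [Field F]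
    (φ : F →+* LaurentSeries Kbar) (h : ∀ y : F, y ≠ 0 → Normable A (φ y)) :
    (gVS A φ h).valuation (q : F) < 1 := by
  rw [gVS_lt_one_iff, map_natCast]
  have hqA : (q : Kbar) ∈ A := natCast_mem _ q
  have h1 := red_C (A := A) hqA
  have h2 : IsLocalRing.residue ↥A ⟨(q : Kbar), hqA⟩ = 0 := by
    rw [IsLocalRing.residue_eq_zero_iff, ValuationSubring.valuation_lt_one_iff]
    exact (ValuationSubring.mem_nonunits_iff A).1 hA
  rw [h2, map_zero, map_natCast] at h1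
  exact h1

namespace Setup

theorem exists_e0 (z : S.F) : ∃ y : FF (K0 A) (M * q * q),
    S.e0 z = ((bc0 A (M * q * q) y : FF Kbar (M * q * q)) : LaurentSeries Kbar) := ⟨z, rfl⟩

theorem exists_e2 (z : S.F) : ∃ y : FF (K0 A) (M * q * q),
    S.e2 z = ((bc0 A (M * q * q) y : FF Kbar (M * q * q)) : LaurentSeries Kbar) := by
  obtain ⟨y, hy⟩ := iFix_iff.1 ((iFix_bc0 _ z).W S.hq S.hqM S.hW2)
  exact ⟨y, by rw [e2_apply, hy]⟩

theorem exists_d0 (z : S.FA) : ∃ y : FF (K0 A) (M * q),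
    S.d0 z = ((bc0 A (M * q) y : FF Kbar (M * q)) : LaurentSeries Kbar) := ⟨z, rfl⟩

theorem exists_d1 (z : S.FA) : ∃ y : FF (K0 A) (M * q),
    S.d1 z = ((bc0 A (M * q) y : FF Kbar (M * q)) : LaurentSeries Kbar) := by
  have h : IFix A (DR.wq M q (bc0 A (M * q) z)) := by
    intro τ hτ
    rw [← wq_gal S.hq S.hqM, iFix_bc0 _ z τ hτ]
  obtain ⟨y, hy⟩ := iFix_iff.1 h
  exact ⟨y, by rw [d1_apply, hy]⟩

theorem eW0 (z : S.F) (hz : z ≠ 0) : ∃ x : ℤ, IsU (S.lvl.W 0) (z / (q : S.F) ^ x) :=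
  exists_isU_of_bc0 S.hq S.hA S.e0 S.normable_e0 _ S.exists_e0 z hz

theorem eW2 (z : S.F) (hz : z ≠ 0) : ∃ x : ℤ, IsU (S.lvl.W 2) (z / (q : S.F) ^ x) :=
  exists_isU_of_bc0 S.hq S.hA S.e2 S.normable_e2 _ S.exists_e2 z hz

theorem eV (i : Fin 2) (z : S.FA) (hz : z ≠ 0) : ∃ x : ℤ, IsU (S.lvl.V i) (z / (q : S.FA) ^ x) := by
  fin_cases i
  · exact exists_isU_of_bc0 S.hq S.hA S.d0 S.normable_d0 _ S.exists_d0 z hz
  · exact exists_isU_of_bc0 S.hq S.hA S.d1 S.normable_d1 _ S.exists_d1 z hz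

theorem qV (i : Fin 2) : (S.lvl.V i).valuation (q : S.FA) < 1 := by
  fin_cases i
  · exact gVS_natCast_lt_one S.hA S.d0 S.normable_d0
  · exact gVS_natCast_lt_one S.hA S.d1 S.normable_d1

theorem qW (i : Fin 3) : (S.lvl.W i).valuation (q : S.F) < 1 := by
  fin_cases i
  · exact gVS_natCast_lt_one S.hA S.e0 S.normable_e0
  · exact gVS_natCast_lt_one S.hA S.e1 S.normable_e1
  · exact gVS_natCast_lt_one S.hA S.e2 S.normable_e2

theorem pi_lt (i : Fin 3) :
    (S.lvl.W i).valuation (algebraMap (O0 A) S.F ((q : ℕ) : O0 A)) < 1 := by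
  rw [map_natCast]
  exact S.qW i

theorem pi_ne : algebraMap (O0 A) S.F ((q : ℕ) : O0 A) ≠ 0 := by
  rw [map_natCast]
  exact_mod_cast S.hq.ne_zero

end Setup

end Fermat.Agent.S36R.NormC
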