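import Fermat.Agent.S36R.Val.VRing
import Fermat.Agent.S36.StepA.Tame
import Fermat.Agent.S36R.K0.DVRL
import Fermat.Agent.GAL.Tors.Desc.BaseChange

/-!
# S36R/Val : the three vertical valuations of `F0 = F_{K0}(M q²)`

`A` a valuation subring of `Kbar` over the prime `q ∤ M`, `K0 = KI A = Kbar^{I_A}`, `O0 = OI A`
(a DVR with uniformiser `q`, `S36R/K0/DVRL.lean`), `k` the residue field of `A`.

* `F0 A N = FF K0 N` the function field of level `N` over `K0` (inside `K0((t))`),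
  `bc0 A N : F0 A N →+* FN N` the base change (coefficientwise inclusion `K0 ⊆ Kbar`),
  `hat A N : F0 A N →+* Kbar((t))` the expansion;
* `Data A M q` : the hypotheses `q` prime, `q ∤ M`, `A` over `q`, together with a primitive `q`-th
  root of unity `ζ`, the expansion `ι` at the middle cusp (`StepA.IsMid`) and the Atkin-Lehner
  involution `W = w_{q²}` (`StepA.IsW2`);
* `D.Phi i : FN (M q q) →+* Kbar((t))`, `i : Fin 3` : `Phi 0 =` the `t`-expansion, `Phi 1 = ι`,
  `Phi 2 =` (the `t`-expansion) `∘ W`;   `D.phi i = D.Phi i ∘ bc0`;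
* `D.Wv i : ValuationSubring (F0 A (M q q))` (`W20, W11, W02` for `i = 0, 1, 2`), the preimage of the
  Gauss ring `gRing A` under `D.phi i`, and `D.res i : D.Wv i →+* k((t))`;
* `pi0, pi1, pi2 : F0 A M →+* F0 A (M q q)` : `u(t) ↦ u(t), u(t^q), u(t^{q²})`, and the table

  |          | `pi0 u`      | `pi1 u`    | `pi2 u`     |
  |----------|--------------|------------|-------------|
  | `phi 0`  | `u(t)`       | `u(t^q)`   | `u(t^{q²})` |
  | `phi 1`  | `u(t)`       | `u(t^q)`   | `u(ζ t)`    |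
  | `phi 2`  | `u(t^{q²})`  | `u(t^q)`   | `u(t)`      |
-/

set_option autoImplicit false
set_option linter.unusedSectionVars false

noncomputable section

namespace Fermat.Agent.S36R.Val

open ModularCurve Fermat.Agent.S24 Fermat.Agent.GAL Fermat.Agent.GAL.Gauss
  Fermat.Agent.S36.StepA Fermat.Agent.S36R.K0L

variable (A : ValuationSubring Kbar)

/-- the function field of level `N` over `K0 = Kbar^{I_A}`. -/
abbrev F0 (N : ℕ) : Type := ↥(FF ↥(KI A) N)

/-- base change `F_{K0}(N) → F_{Kbar}(N)`. -/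
def bc0 (N : ℕ) : F0 A N →+* FN N :=
  Desc.bc (algebraMap ↥(KI A) Kbar) (modularFunctionFieldFull N)

/-- the expansion of an element of `F0`, with coefficients viewed in `Kbar`. -/
def hat (N : ℕ) : F0 A N →+* LaurentSeries Kbar :=
  (coeffMap (algebraMap ↥(KI A) Kbar)).comp (algebraMap (F0 A N) (LaurentSeries ↥(KI A)))

theorem hat_apply (N : ℕ) (x : F0 A N) :
    hat A N x = coeffMap (algebraMap ↥(KI A) Kbar) (x : LaurentSeries ↥(KI A)) := by
  rw [hat, RingHom.comp_apply, IntermediateField.algebraMap_apply]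

@[simp] theorem coe_bc0 (N : ℕ) (x : F0 A N) :
    ((bc0 A N x : FN N) : LaurentSeries Kbar) = hat A N x := by
  rw [hat_apply, bc0, Desc.coe_bc]

theorem bc0_algebraMap (N : ℕ) (c : ↥(KI A)) :
    bc0 A N (algebraMap ↥(KI A) (F0 A N) c) = algebraMap Kbar (FN N) (c : Kbar) :=
  Desc.bc_algebraMap _ _ c

/-- the `t`-expansion `FN N → Kbar((t))`. -/
def valHom (N : ℕ) : FN N →+* LaurentSeries Kbar := algebraMap (FN N) (LaurentSeries Kbar)

@[simp] theorem valHom_apply (N : ℕ) (x : FN N) : valHom N x = (x : LaurentSeries Kbar) := by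
  rw [valHom, IntermediateField.algebraMap_apply]

variable (M q : ℕ) [NeZero M] [NeZero q]

/-- `u(t) ↦ u(t)`. -/
def pi0 : F0 A M →+* F0 A (M * q * q) :=
  (heckeAlphaBar ↥(KI A) (M * q) q : F0 A (M * q) →+* F0 A (M * q * q)).comp
    (heckeAlphaBar ↥(KI A) M q : F0 A M →+* F0 A (M * q))

/-- `u(t) ↦ u(t^q)`. -/
def pi1 : F0 A M →+* F0 A (M * q * q) :=
  (heckeAlphaBar ↥(KI A) (M * q) q : F0 A (M * q) →+* F0 A (M * q * q)).comp
    (heckeBetaBar ↥(KI A) M q : F0 A M →+* F0 A (M * q))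

/-- `u(t) ↦ u(t^{q²})`. -/
def pi2 : F0 A M →+* F0 A (M * q * q) :=
  (heckeBetaBar ↥(KI A) (M * q) q : F0 A (M * q) →+* F0 A (M * q * q)).comp
    (heckeBetaBar ↥(KI A) M q : F0 A M →+* F0 A (M * q))

theorem pi0_apply (u : F0 A M) :
    pi0 A M q u = heckeAlphaBar ↥(KI A) (M * q) q (heckeAlphaBar ↥(KI A) M q u) := by
  rw [pi0, RingHom.comp_apply, RingHom.coe_coe, RingHom.coe_coe]

theorem pi1_apply (u : F0 A M) :
    pi1 A M q u = heckeAlphaBar ↥(KI A) (M * q) q (heckeBetaBar ↥(KI A) M q u) := by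
  rw [pi1, RingHom.comp_apply, RingHom.coe_coe, RingHom.coe_coe]

theorem pi2_apply (u : F0 A M) :
    pi2 A M q u = heckeBetaBar ↥(KI A) (M * q) q (heckeBetaBar ↥(KI A) M q u) := by
  rw [pi2, RingHom.comp_apply, RingHom.coe_coe, RingHom.coe_coe]

theorem coe_pi0 (u : F0 A M) :
    ((pi0 A M q u : F0 A (M * q * q)) : LaurentSeries ↥(KI A)) = (u : LaurentSeries ↥(KI A)) := by
  rw [pi0_apply, coe_heckeAlphaBar, coe_heckeAlphaBar]

theorem coe_pi1 (u : F0 A M) :
    ((pi1 A M q u : F0 A (M * q * q)) : LaurentSeries ↥(KI A)) =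
      qExpand ↥(KI A) q (u : LaurentSeries ↥(KI A)) := by
  rw [pi1_apply, coe_heckeAlphaBar, coe_heckeBetaBar]

theorem coe_pi2 (u : F0 A M) :
    ((pi2 A M q u : F0 A (M * q * q)) : LaurentSeries ↥(KI A)) =
      qExpand ↥(KI A) q (qExpand ↥(KI A) q (u : LaurentSeries ↥(KI A))) := by
  rw [pi2_apply, coe_heckeBetaBar, coe_heckeBetaBar]


theorem bc0_alpha (u : F0 A M) :
    bc0 A (M * q) (heckeAlphaBar ↥(KI A) M q u) = heckeAlphaBar Kbar M q (bc0 A M u) := by
  apply Subtype.ext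
  rw [coe_bc0, coe_heckeAlphaBar, coe_bc0, hat_apply, hat_apply, coe_heckeAlphaBar]

theorem bc0_beta (u : F0 A M) :
    bc0 A (M * q) (heckeBetaBar ↥(KI A) M q u) = heckeBetaBar Kbar M q (bc0 A M u) := by
  apply Subtype.ext
  rw [coe_bc0, coe_heckeBetaBar, coe_bc0, hat_apply, hat_apply, coe_heckeBetaBar,
    coeffMap_qExpand]

theorem hat_algebraMap (N : ℕ) (c : ↥(KI A)) :
    hat A N (algebraMap ↥(KI A) (F0 A N) c) = HahnSeries.C (c : Kbar) := by
  rw [← coe_bc0, bc0_algebraMap]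
  exact Gauss.algebraMap_eq_C _

/-- The standing hypotheses and choices of block R-VAL. -/
structure Data where
  hq : q.Prime
  hqM : ¬ q ∣ M
  hA : A.LiesOverPrime q
  /-- a primitive `q`-th root of unity -/
  ζ : Kbar
  hζ : IsPrimitiveRoot ζ q
  /-- the expansion at the middle cusp -/
  ι : FN (M * q * q) →+* LaurentSeries Kbar
  hι : IsMid M q ζ (hζ.ne_zero hq.ne_zero) ι
  /-- the Atkin-Lehner involution `w_{q²}` -/
  W : FN (M * q * q) ≃ₐ[Kbar] FN (M * q * q)
  hW : IsW2 M q W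

variable {A M q}

namespace Data

variable (D : Data A M q)

/-- the three embeddings of `FN (M q q)` in `Kbar((t))`. -/
def Phi : Fin 3 → (FN (M * q * q) →+* LaurentSeries Kbar)
  | 0 => valHom (M * q * q)
  | 1 => D.ι
  | 2 => (valHom (M * q * q)).comp (D.W : FN (M * q * q) →+* FN (M * q * q))

theorem Phi_zero (x : FN (M * q * q)) : D.Phi 0 x = (x : LaurentSeries Kbar) := by
  show valHom (M * q * q) x = _
  rw [valHom_apply]

theorem Phi_one (x : FN (M * q * q)) : D.Phi 1 x = D.ι x := rfl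

theorem Phi_two (x : FN (M * q * q)) : D.Phi 2 x = (D.W x : LaurentSeries Kbar) := by
  show ((valHom (M * q * q)).comp (D.W : FN (M * q * q) →+* FN (M * q * q))) x = _
  rw [RingHom.comp_apply, valHom_apply, RingHom.coe_coe]

/-- (from `S36/StepA/Tame.lean : normable_coe, IsMid.normable`, helper96). -/
theorem isGaussian_Phi (i : Fin 3) : IsGaussian A (D.Phi i) := by
  intro y hy
  fin_cases i
  · show Normable A (D.Phi 0 y)
    rw [Phi_zero]
    exact normable_coe D.hq D.hA y hy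
  · show Normable A (D.Phi 1 y)
    rw [Phi_one]
    exact D.hι.normable D.hq D.hA D.hζ.pow_eq_one y hy
  · show Normable A (D.Phi 2 y)
    rw [Phi_two]
    exact normable_coe D.hq D.hA _ ((map_ne_zero D.W).2 hy)

/-- the three embeddings of `F0 = F_{K0}(M q q)` in `Kbar((t))`. -/
def phi (i : Fin 3) : F0 A (M * q * q) →+* LaurentSeries Kbar := (D.Phi i).comp (bc0 A (M * q * q))

theorem phi_apply (i : Fin 3) (x : F0 A (M * q * q)) : D.phi i x = D.Phi i (bc0 A _ x) := by
  rw [phi, RingHom.comp_apply]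

theorem isGaussian_phi (i : Fin 3) : IsGaussian A (D.phi i) := (D.isGaussian_Phi i).comp _

/-- the three vertical valuation rings `W20, W11, W02` of `F0`. -/
def Wv (i : Fin 3) : ValuationSubring (F0 A (M * q * q)) := vRing (D.phi i) (D.isGaussian_phi i)

/-- the residue maps. -/
def res (i : Fin 3) : ↥(D.Wv i) →+* LaurentSeries (IsLocalRing.ResidueField ↥A) :=
  vRes (D.phi i) (D.isGaussian_phi i)

theorem mem_Wv {i : Fin 3} {x : F0 A (M * q * q)} : x ∈ D.Wv i ↔ D.phi i x ∈ gRing A := Iff.rfl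

theorem res_apply {i : Fin 3} (x : ↥(D.Wv i)) : D.res i x = gRes A ⟨D.phi i x, x.2⟩ := rfl

theorem res_eq_zero_iff {i : Fin 3} (x : ↥(D.Wv i)) :
    D.res i x = 0 ↔ (x : F0 A (M * q * q)) ∈ (D.Wv i).nonunits := vRes_eq_zero_iff x

/-! ### the table -/

theorem phi0_apply (x : F0 A (M * q * q)) : D.phi 0 x = hat A _ x := by
  rw [phi_apply, Phi_zero, coe_bc0]

theorem phi0_pi0 (u : F0 A M) : D.phi 0 (pi0 A M q u) = hat A M u := by
  rw [phi0_apply, hat_apply, hat_apply, coe_pi0]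

theorem phi0_pi1 (u : F0 A M) : D.phi 0 (pi1 A M q u) = qExpand Kbar q (hat A M u) := by
  rw [phi0_apply, hat_apply, hat_apply, coe_pi1, coeffMap_qExpand]

theorem phi0_pi2 (u : F0 A M) :
    D.phi 0 (pi2 A M q u) = qExpand Kbar q (qExpand Kbar q (hat A M u)) := by
  rw [phi0_apply, hat_apply, hat_apply, coe_pi2, coeffMap_qExpand, coeffMap_qExpand]

include D in
theorem wq_alpha (v : FN M) :
    DR.wq M q (heckeAlphaBar Kbar M q v) = heckeBetaBar Kbar M q v :=
  AlgHom.congr_fun (DR.wq_comp_alpha D.hq D.hqM) v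

include D in
theorem wq_beta (v : FN M) :
    DR.wq M q (heckeBetaBar Kbar M q v) = heckeAlphaBar Kbar M q v :=
  AlgHom.congr_fun (DR.wq_comp_beta D.hq D.hqM) v

theorem phi1_pi0 (u : F0 A M) : D.phi 1 (pi0 A M q u) = hat A M u := by
  rw [phi_apply, Phi_one, pi0_apply, bc0_alpha, bc0_alpha, D.hι.alpha, coe_heckeAlphaBar, coe_bc0]

theorem phi1_pi1 (u : F0 A M) : D.phi 1 (pi1 A M q u) = qExpand Kbar q (hat A M u) := by
  rw [phi_apply, Phi_one, pi1_apply, bc0_alpha, bc0_beta, D.hι.alpha, coe_heckeBetaBar, coe_bc0]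

theorem phi1_pi2 (u : F0 A M) :
    D.phi 1 (pi2 A M q u) =
      Fermat.Agent.S24.twist D.ζ (D.hζ.ne_zero D.hq.ne_zero) (hat A M u) := by
  rw [phi_apply, Phi_one, pi2_apply, bc0_beta, bc0_beta, D.hι.beta, D.wq_beta, coe_heckeAlphaBar,
    coe_bc0]

theorem phi2_pi0 (u : F0 A M) :
    D.phi 2 (pi0 A M q u) = qExpand Kbar q (qExpand Kbar q (hat A M u)) := by
  rw [phi_apply, Phi_two, pi0_apply, bc0_alpha, bc0_alpha, D.hW.alpha, D.wq_alpha,
    coe_heckeBetaBar, coe_heckeBetaBar, coe_bc0]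

theorem phi2_pi1 (u : F0 A M) : D.phi 2 (pi1 A M q u) = qExpand Kbar q (hat A M u) := by
  rw [phi_apply, Phi_two, pi1_apply, bc0_alpha, bc0_beta, D.hW.alpha, D.wq_beta,
    coe_heckeBetaBar, coe_heckeAlphaBar, coe_bc0]

theorem phi2_pi2 (u : F0 A M) : D.phi 2 (pi2 A M q u) = hat A M u := by
  rw [phi_apply, Phi_two, pi2_apply, bc0_beta, bc0_beta, D.hW.beta, D.wq_beta,
    coe_heckeAlphaBar, coe_heckeAlphaBar, coe_bc0]

/-- constants. -/
theorem phi_algebraMap (i : Fin 3) (c : ↥(KI A)) :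
    D.phi i (algebraMap ↥(KI A) (F0 A (M * q * q)) c) = HahnSeries.C (c : Kbar) := by
  rw [phi_apply, bc0_algebraMap]
  fin_cases i
  · show D.Phi 0 _ = _
    rw [Phi_zero]
    exact Gauss.algebraMap_eq_C _
  · show D.Phi 1 _ = _
    rw [Phi_one, D.hι.map_const, Gauss.algebraMap_eq_C]
  · show D.Phi 2 _ = _
    rw [Phi_two, AlgEquiv.commutes]
    exact Gauss.algebraMap_eq_C _

end Data

end Fermat.Agent.S36R.Val
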