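import Fermat.Agent.S36R.Val.Indep
import Fermat.Agent.S36R.Val.Abs.Contract

/-!
# S36R/Val/Gen : from series-level witnesses to `AbsConcl` / `VertFam` (generic fields `K`, `F`)

Everything which mentions the rational function field `K(x) ⊆ F` is done here for generic fields
(typeclass search is hopeless for the concrete `K0 A`, `FF (K0 A) N`).
-/

set_option autoImplicit false

noncomputable section

namespace Fermat.Agent.S36R.Val

open ModularCurve Fermat.Agent.S24 Fermat.Agent.GAL Fermat.Agent.GAL.Gauss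
  Fermat.Agent.S36.StepA Polynomial IntermediateField

variable {A : ValuationSubring Kbar} {K F : Type*} [Field K] [Field F] [Algebra K F]

/-- The series-level input of block R-VAL: finitely many Gaussian embeddings `φ i` of `F`, an element
`x` (think of `j`) with residually transcendental integral expansions `s i`, and witnesses for
`e(W i) ≥ e i`, `f(W i) ≥ f i`, whose residues lie in a subfield `T` of `k((t))`. -/
structure GenInput (A : ValuationSubring Kbar) (ι₀ : K →+* Kbar) {ι : Type*}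
    (φ : ι → F →+* LaurentSeries Kbar) (x : F) (ϖ : K) (e f : ι → ℕ)
    (T : IntermediateField (IsLocalRing.ResidueField ↥A)
      (LaurentSeries (IsLocalRing.ResidueField ↥A))) : Prop where
  gaussian : ∀ i, IsGaussian A (φ i)
  const : ∀ i (a : K), φ i (algebraMap K F a) = HahnSeries.C (ι₀ a)
  unif : IsUnif (A.comap ι₀) ϖ
  exists_s : ∀ i, ∃ s : LaurentSeries ↥A, φ i x = iA A s ∧
    Transcendental (IsLocalRing.ResidueField ↥A) (pA A s) ∧ pA A s ∈ T ∧
    ∃ (κ : Type) (_ : Fintype κ) (y : κ → F) (w : κ → LaurentSeries ↥A), Fintype.card κ = f i ∧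
      (∀ l, φ i (y l) = iA A (w l)) ∧ (∀ l, pA A (w l) ∈ T) ∧
      LinearIndependent ↥((IsLocalRing.ResidueField ↥A)⟮pA A s⟯) (fun l => pA A (w l))
  exists_b : ∀ i, ∃ b : F, b ≠ 0 ∧ Red A (φ i b) 0 ∧
    φ i (algebraMap K F ϖ / b ^ e i) ∈ gRing A
  distinct : ∀ i j, i ≠ j → ∃ z : F, Red A (φ j z) 0 ∧ ∃ r, r ≠ 0 ∧ Red A (φ i z) r

variable {ι₀ : K →+* Kbar} {ι : Type*} {φ : ι → F →+* LaurentSeries Kbar} {x : F} {ϖ : K}
  {e f : ι → ℕ} {T : IntermediateField (IsLocalRing.ResidueField ↥A)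
      (LaurentSeries (IsLocalRing.ResidueField ↥A))}

/-- the valuation rings. -/
def GenInput.W (h : GenInput A ι₀ φ x ϖ e f T) (i : ι) : ValuationSubring F :=
  vRing (φ i) (h.gaussian i)

theorem GenInput.isGaussExt (h : GenInput A ι₀ φ x ϖ e f T) (i : ι) :
    IsGaussExt (A.comap ι₀) (h.W i) x := by
  obtain ⟨s, hx, hs, -⟩ := h.exists_s i
  exact isGaussExt_vRing ι₀ (h.gaussian i) (h.const i) hx hs

theorem GenInput.W_injective (h : GenInput A ι₀ φ x ϖ e f T) : Function.Injective h.W := by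
  intro i j hij
  by_contra hne
  obtain ⟨z, ⟨hz1, hz2⟩, r, hr, hz3, hz4⟩ := h.distinct i j hne
  have h1 : z ∈ (h.W j).nonunits :=
    (vRes_eq_zero_iff (⟨z, hz1⟩ : ↥(vRing (φ j) (h.gaussian j)))).1 hz2
  rw [← hij] at h1
  have h2 := (vRes_eq_zero_iff (⟨z, hz3⟩ : ↥(vRing (φ i) (h.gaussian i)))).2 h1
  exact hr (hz4.symm.trans h2)

theorem GenInput.efData (h : GenInput A ι₀ φ x ϖ e f T) (i₀ i : ι) :
    EFData ((h.W i₀).comap (algebraMap K⟮x⟯ F)) (algebraMap K K⟮x⟯ ϖ) (h.W i) (e i) (f i) := by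
  refine ⟨(h.isGaussExt i).comap_eq (h.isGaussExt i₀), ?_, ?_⟩
  · obtain ⟨b, hb0, ⟨hb1, hb2⟩, hb3⟩ := h.exists_b i
    refine ⟨b, (vRes_eq_zero_iff (⟨b, hb1⟩ : ↥(vRing (φ i) (h.gaussian i)))).1 hb2, hb0, ?_⟩
    rw [← IsScalarTower.algebraMap_apply]
    exact hb3
  · obtain ⟨s, hx, hs, -, κ, hκ, y, w, hcard, hy, -, hw⟩ := h.exists_s i
    refine ⟨κ, hκ, y, hcard, ?_⟩
    rw [← (h.isGaussExt i).comap_eq (h.isGaussExt i₀)]
    exact isIndep_vRing ι₀ (h.gaussian i) (h.const i) hx hs y w hy hw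

/-- **GEN.** -/
theorem GenInput.absConcl [Fintype ι] (h : GenInput A ι₀ φ x ϖ e f T) (i₀ : ι)
    (hfd : FiniteDimensional K⟮x⟯ F) (hsep : Algebra.IsSeparable K⟮x⟯ F)
    (hsum : Module.finrank K⟮x⟯ F ≤ ∑ i, e i * f i) :
    AbsConcl ((h.W i₀).comap (algebraMap K⟮x⟯ F)) (algebraMap K K⟮x⟯ ϖ) h.W e f :=
  abs_main _ _ ((h.isGaussExt i₀).isUnif h.unif) h.W h.W_injective e f (h.efData i₀) hsum

/-- **GEN'.** the package consumed by `Val/Abs/Contract.lean`. -/
theorem GenInput.vertFam [Fintype ι] [Nonempty ι] (h : GenInput A ι₀ φ x ϖ e f T)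
    (hfd : FiniteDimensional K⟮x⟯ F) (hsep : Algebra.IsSeparable K⟮x⟯ F)
    (hsum : Module.finrank K⟮x⟯ F ≤ ∑ i, e i * f i) :
    VertFam (A.comap ι₀) ϖ x h.W e := by
  obtain ⟨i₀⟩ := ‹Nonempty ι›
  exact vertFam_of_absConcl h.unif h.isGaussExt
    (fun i => (h.isGaussExt i).comap_eq (h.isGaussExt i₀)) (h.absConcl i₀ hfd hsep hsum)

/-- **GEN''.** the residue field of `W i` is contained in `T`. -/
theorem GenInput.vRes_mem [Fintype ι] (h : GenInput A ι₀ φ x ϖ e f T)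
    (hfd : FiniteDimensional K⟮x⟯ F) (hsep : Algebra.IsSeparable K⟮x⟯ F)
    (hsum : Module.finrank K⟮x⟯ F ≤ ∑ i, e i * f i) (i : ι)
    (r : ↥(vRing (φ i) (h.gaussian i))) : vRes (φ i) (h.gaussian i) r ∈ T := by
  obtain ⟨s, hx, hs, hsT, κ, hκ, y, w, hcard, hy, hwT, hw⟩ := h.exists_s i
  have hC := h.absConcl i hfd hsep hsum
  have hind := isIndep_vRing ι₀ (h.gaussian i) (h.const i) hx hs y w hy hw
  obtain ⟨c, hc, hdiff⟩ := hC.span i κ y hcard hind r r.2
  let c' : κ → ↥(vRing (φ i) (h.gaussian i)) := fun l => ⟨algebraMap K⟮x⟯ F (c l), hc l⟩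
  let y' : κ → ↥(vRing (φ i) (h.gaussian i)) := fun l => ⟨y l, mem_vRing_of_eq_iA (hy l)⟩
  have h0 : vRes (φ i) (h.gaussian i) (r - ∑ l, c' l * y' l) = 0 := by
    rw [vRes_eq_zero_iff]
    have : ((r - ∑ l, c' l * y' l : ↥(vRing (φ i) (h.gaussian i))) : F) =
        (r : F) - ∑ l, algebraMap K⟮x⟯ F (c l) * y l := by
      push_cast
      rfl
    rw [this]
    exact hdiff
  rw [map_sub, sub_eq_zero, map_sum] at h0
  rw [h0]
  refine sum_mem fun l _ => ?_
  rw [map_mul]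
  refine mul_mem ?_ ?_
  · have h1 := vRes_mem_adjoin ι₀ (h.gaussian i) (h.const i) hx hs (c' l) (c l).2
    exact (adjoin_simple_le_iff.2 hsT) h1
  · rw [vRes_of_eq_iA (y' l) (hy l)]
    exact hwT l

end Fermat.Agent.S36R.Val
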