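import Fermat.Agent.GAL.Igusa.LevelDeg
import Fermat.Agent.GAL.Model

/-!
# S36R/Val/IntBasis : a basis of `E k M` over `k(j)` consisting of series with integer coefficients

`ZJ M ⊆ ℤ((t))` is the subring generated by the `j(t^d)`, `d ∣ M`.  Its image in `L((t))` lies in the
function field of level `M` over `L`, for every field `L`; over a field `k` with `(M : k) ≠ 0` the
image spans `E k M` over `k(j)`, so it contains a basis (`ψ(M)` elements).
-/

set_option autoImplicit false

noncomputable section

namespace Fermat.Agent.S36R.Val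

open ModularCurve Fermat.Agent.GAL Fermat.Agent.GAL.Igusa IntermediateField

/-- the subring of `ℤ((t))` generated by the `j(t^d)`, `d ∣ M`. -/
def ZJ (M : ℕ) : Subring (LaurentSeries ℤ) :=
  Subring.closure {x | ∃ (d : ℕ) (_ : NeZero d), d ∣ M ∧ x = qExpand ℤ d (jqModC ℤ)}

/-- **Leaf W3a.** (`Subring.closure_induction`, `coeffMap_qExpand`, `coeffMap_jqModC`,
`mem_divisorExpansionsC`, `IntermediateField.subset_adjoin`.) -/
theorem coeffMap_mem_fullC (k : Type*) [Field k] {M : ℕ} {z : LaurentSeries ℤ} (hz : z ∈ ZJ M) :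
    coeffMap (Int.castRingHom k) z ∈ modularFunctionFieldFullC k M := by
  induction hz using Subring.closure_induction with
  | mem x hx =>
    obtain ⟨d, hd, hdM, rfl⟩ := hx
    rw [coeffMap_qExpand, coeffMap_jqModC]
    exact IntermediateField.subset_adjoin _ _ (mem_divisorExpansionsC k M hdM)
  | zero => rw [map_zero]; exact zero_mem _
  | one => rw [map_one]; exact one_mem _
  | add x y _ _ hx hy => rw [map_add]; exact add_mem hx hy
  | neg x _ hx => rw [map_neg]; exact neg_mem hx
  | mul x y _ _ hx hy => rw [map_mul]; exact mul_mem hx hy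

/-- **Leaf W3b.** (as W3a; `coeffEmb_mem_laurentBaseChange`, `jqd_mem_full`; see
`Fermat/Agent/GAL/Hecke/Normalise.lean : modularFunctionFieldBar_eq_fullC` for
`coeffEmb L (qExpand ℚ d jq) = qExpand L d (jqModC L)`.) -/
theorem coeffMap_mem_FF (L : Type*) [Field L] [Algebra ℚ L] {M : ℕ} {z : LaurentSeries ℤ}
    (hz : z ∈ ZJ M) : coeffMap (Int.castRingHom L) z ∈ FF L M := by
  induction hz using Subring.closure_induction with
  | mem x hx =>
    obtain ⟨d, hd, hdM, rfl⟩ := hx
    have h1 : coeffMap (Int.castRingHom L) (qExpand ℤ d (jqModC ℤ)) =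
        coeffEmb L (qExpand ℚ d jq) := by
      rw [coeffMap_qExpand, coeffMap_jqModC, coeffEmb, coeffMap_qExpand, ← jqModC_rat,
        coeffMap_jqModC]
    rw [h1]
    exact coeffEmb_mem_laurentBaseChange L (jqd_mem_full M hdM)
  | zero => rw [map_zero]; exact zero_mem _
  | one => rw [map_one]; exact one_mem _
  | add x y _ _ hx hy => rw [map_add]; exact add_mem hx hy
  | neg x _ hx => rw [map_neg]; exact neg_mem hx
  | mul x y _ _ hx hy => rw [map_mul]; exact mul_mem hx hy

/-- **Leaf W3.**
PROOF. `E k M = k(j̄_d : d ∣ M)` is finite over `k(j̄)` of degree `ψ(M)` (`Igusa.finrank_jb`,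
`finiteDimensional_jb`); since the `j̄_d` are algebraic over `k(j̄)`, `E k M` is the `k(j̄)`-ALGEBRA
generated by them (`IntermediateField.adjoin_algebraic_toSubalgebra`), i.e. the `k(j̄)`-span of the
monoid generated by them (`Algebra.adjoin_eq_span`), a fortiori of the image of `ZJ M`.  Extract a
basis from this spanning set (`Submodule.exists_fun_fin_finrank_span_eq` or
`exists_linearIndependent` + cardinality).  Beware: `finrank_jb` is about
`k⟮jb k M⟯ ≤ E k M`; here the scalars are `k⟮jqModC k⟯ ≤ k((t))`. -/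
theorem exists_intBasis (k : Type) [Field k] (M : ℕ) [NeZero M] (hM : ((M : ℕ) : k) ≠ 0) :
    ∃ z : Fin (dedekindPsi M) → LaurentSeries ℤ, (∀ l, z l ∈ ZJ M) ∧
      LinearIndependent ↥(k⟮jqModC k⟯) (fun l => coeffMap (Int.castRingHom k) (z l)) := by
  have hfd : FiniteDimensional ↥(S28.EE k) ↥(S28.FF k M) :=
    S28.finiteDimensional_FF k M (S28.statementB S28.statementA) hM
  have hrank : Module.finrank ↥(S28.EE k) ↥(S28.FF k M) = dedekindPsi M :=
    (finrank_jb_eq k M hM).symm.trans (finrank_jb k M hM)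
  have halg : ∀ x ∈ divisorExpansionsC k M, IsAlgebraic ↥(S28.EE k) x := by
    intro x hx
    have hx' : x ∈ S28.FF k M := IntermediateField.subset_adjoin _ _ hx
    have h0 : Algebra.IsAlgebraic ↥(S28.EE k) ↥(S28.FF k M) := Algebra.IsAlgebraic.of_finite _ _
    have h1 : IsAlgebraic ↥(S28.EE k) (⟨x, hx'⟩ : ↥(S28.FF k M)) := h0.isAlgebraic _
    exact IntermediateField.isAlgebraic_iff.1 h1
  have hspan : Submodule.span ↥(S28.EE k)
      (Submonoid.closure (divisorExpansionsC k M) : Set (LaurentSeries k)) =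
      Subalgebra.toSubmodule (S28.FF k M).toSubalgebra := by
    rw [IntermediateField.adjoin_toSubalgebra_of_isAlgebraic halg, Algebra.adjoin_eq_span]
  have hcard : Module.finrank ↥(S28.EE k) ↥(Submodule.span ↥(S28.EE k)
      (Submonoid.closure (divisorExpansionsC k M) : Set (LaurentSeries k))) = dedekindPsi M := by
    rw [hspan]
    exact hrank
  have hfin : Module.Finite ↥(S28.EE k) ↥(Submodule.span ↥(S28.EE k)
      (Submonoid.closure (divisorExpansionsC k M) : Set (LaurentSeries k))) := by
    rw [hspan]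
    exact hfd
  obtain ⟨f, hf, -, hli⟩ := Submodule.exists_fun_fin_finrank_span_eq ↥(S28.EE k)
    (Submonoid.closure (divisorExpansionsC k M) : Set (LaurentSeries k))
  have hlift : ∀ x ∈ Submonoid.closure (divisorExpansionsC k M),
      ∃ z ∈ ZJ M, coeffMap (Int.castRingHom k) z = x := by
    intro x hx
    induction hx using Submonoid.closure_induction with
    | mem x hx =>
      obtain ⟨d, hd, hdM, rfl⟩ := hx
      exact ⟨qExpand ℤ d (jqModC ℤ), Subring.subset_closure ⟨d, hd, hdM, rfl⟩, by
        rw [coeffMap_qExpand, coeffMap_jqModC]⟩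
    | one => exact ⟨1, one_mem _, map_one _⟩
    | mul x y _ _ hx hy =>
      obtain ⟨a, ha, rfl⟩ := hx
      obtain ⟨b, hb, rfl⟩ := hy
      exact ⟨a * b, mul_mem ha hb, map_mul _ _ _⟩
  choose z hz hzf using fun i => hlift (f i) (hf i)
  refine ⟨fun l => z (Fin.cast hcard.symm l), fun l => hz _, ?_⟩
  have h2 : (fun l => coeffMap (Int.castRingHom k) (z (Fin.cast hcard.symm l))) =
      f ∘ Fin.cast hcard.symm := by
    funext l
    exact hzf _
  rw [h2]
  exact hli.comp _ (Fin.cast_injective _)

end Fermat.Agent.S36R.Val
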