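import Mathlib

/-!
# S36R/Val/PowBasis : `X^a z_l` (`a < n`) is independent over `k(X^n)` (pure Mathlib)
-/

set_option autoImplicit false

open Polynomial IntermediateField

noncomputable section

namespace Fermat.Agent.S36R.Val

variable {k Λ : Type*} [Field k] [Field Λ] [Algebra k Λ]

open IntermediateField.algebraAdjoinAdjoin in
/-- **Leaf W4a.** `1, X, …, X^(n-1)` are linearly independent over `k(X^n)` (`X` transcendental).
PROOF: clear denominators (`IntermediateField.mem_adjoin_simple_iff`): a relation gives polynomials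
`p a` with `∑ a, (p a)(X^n) X^a = 0`, i.e. `∑ a, expand n (p a) * X^a = 0` in `k[X]`; compare the
coefficients of `X^(n m + a)`. -/
theorem linearIndependent_pow {X : Λ} (hX : Transcendental k X) {n : ℕ} (hn : 0 < n) :
    LinearIndependent ↥(k⟮X ^ n⟯) (fun a : Fin n => X ^ (a : ℕ)) := by
  have h1 : LinearIndependent ↥(Algebra.adjoin k {X ^ n}) (fun a : Fin n => X ^ (a : ℕ)) := by
    rw [Fintype.linearIndependent_iff]
    intro g hg
    have hp : ∀ a, ∃ p : k[X], aeval (X ^ n) p = (g a : Λ) := by
      intro a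
      have h2 : (g a : Λ) ∈ (aeval (R := k) (X ^ n)).range := by
        rw [← Algebra.adjoin_singleton_eq_range_aeval]
        exact (g a).2
      exact h2
    choose p hp using hp
    have hsum : aeval X (∑ a : Fin n, expand k n (p a) * Polynomial.X ^ (a : ℕ)) = 0 := by
      rw [map_sum, ← hg]
      refine Finset.sum_congr rfl fun a _ => ?_
      rw [map_mul, expand_aeval, map_pow, aeval_X, hp]
      rfl
    have hzero := transcendental_iff.1 hX _ hsum
    intro a
    have hpa : p a = 0 := by
      ext m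
      have := congrArg (fun q => q.coeff (m * n + a)) hzero
      simp only [finsetSum_coeff, coeff_zero] at this
      rw [Finset.sum_eq_single a] at this
      · rw [coeff_mul_X_pow, coeff_expand_mul hn] at this
        simpa using this
      · intro b _ hb
        rw [coeff_mul_X_pow', coeff_expand hn]
        split_ifs with h1 h2
        · exfalso
          obtain ⟨c, hc⟩ := h2
          have h3 : n * c + b = m * n + a := by omega
          have h4 : (n * c + b) % n = (m * n + a) % n := by rw [h3]
          rw [Nat.mul_add_mod, Nat.mul_comm m n, Nat.mul_add_mod, Nat.mod_eq_of_lt b.2,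
            Nat.mod_eq_of_lt a.2] at h4
          exact hb (Fin.ext h4)
        · rfl
        · rfl
      · simp
    apply Subtype.ext
    rw [← hp a, hpa]
    simp
  exact h1.localization ↥(k⟮X ^ n⟯) (nonZeroDivisors _)

/-- **Leaf W4.** PROOF: `k(X^n) ⊆ k(X)`; for a relation `∑ c (a,l) X^a z_l = 0` the coefficients
`∑_a c (a,l) X^a ∈ k(X)` vanish by `hz`, then `linearIndependent_pow`. -/
theorem linearIndependent_pow_mul {X : Λ} (hX : Transcendental k X) {n : ℕ} (hn : 0 < n)
    {κ : Type*} (z : κ → Λ) (hz : LinearIndependent ↥(k⟮X⟯) z) :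
    LinearIndependent ↥(k⟮X ^ n⟯) (fun al : Fin n × κ => X ^ (al.1 : ℕ) * z al.2) := by
  have hle : k⟮X ^ n⟯ ≤ k⟮X⟯ := by
    rw [adjoin_simple_le_iff]
    exact pow_mem (mem_adjoin_simple_self k X) n
  let _ : Algebra ↥(k⟮X ^ n⟯) ↥(k⟮X⟯) := (IntermediateField.inclusion hle).toRingHom.toAlgebra
  have : IsScalarTower ↥(k⟮X ^ n⟯) ↥(k⟮X⟯) Λ := IsScalarTower.of_algebraMap_eq fun _ => rfl
  have hb : LinearIndependent ↥(k⟮X ^ n⟯) (fun a : Fin n => (AdjoinSimple.gen k X) ^ (a : ℕ)) := by
    refine LinearIndependent.of_comp (IsScalarTower.toAlgHom ↥(k⟮X ^ n⟯) ↥(k⟮X⟯) Λ).toLinearMap ?_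
    have e : ((IsScalarTower.toAlgHom ↥(k⟮X ^ n⟯) ↥(k⟮X⟯) Λ).toLinearMap ∘
        fun a : Fin n => (AdjoinSimple.gen k X) ^ (a : ℕ)) = fun a : Fin n => X ^ (a : ℕ) := by
      funext a
      simp
    rw [e]
    exact linearIndependent_pow hX hn
  have h2 := linearIndependent_smul hb hz
  have e2 : (fun p : Fin n × κ => (AdjoinSimple.gen k X) ^ (p.1 : ℕ) • z p.2) =
      fun al : Fin n × κ => X ^ (al.1 : ℕ) * z al.2 := by
    funext al
    rw [IntermediateField.smul_def]
    simp
  rw [e2] at h2
  exact h2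

end Fermat.Agent.S36R.Val
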