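import Fermat.Agent.S36R.Val.Defs
import Fermat.Agent.S36R.Val.Gen
import Fermat.Agent.S36R.Val.IntBasis
import Fermat.Agent.S36R.Val.PowBasis
import Fermat.Agent.S36R.KS.Zeta
import Fermat.Agent.S36R.K0.Defs
import Fermat.Agent.GAL.Tors.Dict.Gen
import Fermat.Agent.GAL.Hecke.SeriesFrob
import Fermat.Agent.GAL.Hecke.Normalise

/-!
# S36R/Val/Wit : the witnesses `(e, f) = (1, ψ), (q - 1, ψ), (1, q² ψ)` for `W20, W11, W02`

`Data.genInput : GenInput A (algebraMap K0 Kbar) D.phi j q (ee q) (ff M q)`.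
-/

set_option autoImplicit false
set_option linter.unusedSectionVars false

noncomputable section

namespace Fermat.Agent.S36R.Val

open ModularCurve Fermat.Agent.S24 Fermat.Agent.GAL Fermat.Agent.GAL.Gauss
  Fermat.Agent.S36.StepA Fermat.Agent.S36R.K0L IntermediateField

/-! ### complements on `Red` -/

section Red

variable {A : ValuationSubring Kbar} {s t : LaurentSeries Kbar}
  {r r' : LaurentSeries (IsLocalRing.ResidueField ↥A)}

theorem red_add (hs : Red A s r) (ht : Red A t r') : Red A (s + t) (r + r') := by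
  obtain ⟨h, rfl⟩ := hs
  obtain ⟨h', rfl⟩ := ht
  refine ⟨add_mem h h', ?_⟩
  rw [← map_add]
  exact congrArg _ (Subtype.ext rfl)

theorem red_neg (hs : Red A s r) : Red A (-s) (-r) := by
  obtain ⟨h, rfl⟩ := hs
  refine ⟨neg_mem h, ?_⟩
  rw [← map_neg]
  exact congrArg _ (Subtype.ext rfl)

theorem red_sub (hs : Red A s r) (ht : Red A t r') : Red A (s - t) (r - r') := by
  rw [sub_eq_add_neg, sub_eq_add_neg]
  exact red_add hs (red_neg ht)

theorem red_C_nonunit {c : Kbar} (hc : c ∈ A.nonunits) : Red A (HahnSeries.C c) 0 := by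
  have h := red_C (A := A) (A.nonunits_subset hc)
  have h3 : IsLocalRing.residue ↥A ⟨c, A.nonunits_subset hc⟩ = 0 := by
    rw [IsLocalRing.residue_eq_zero_iff]
    exact (A.coe_mem_nonunits_iff (a := ⟨c, A.nonunits_subset hc⟩)).1 hc
  rwa [h3, map_zero] at h

end Red

variable (A : ValuationSubring Kbar)

/-- `j` as an element of `F0 A N` (`= AA.j0 A N`). -/
abbrev jN (N : ℕ) : F0 A N := Tors.Dict.jF ↥(KI A) N

theorem coe_jN (N : ℕ) : ((jN A N : F0 A N) : LaurentSeries ↥(KI A)) = jqModC ↥(KI A) := by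
  show coeffEmb ↥(KI A) jq = _
  rw [coeffEmb, ← jqModC_rat, coeffMap_jqModC]

theorem hat_jN (N : ℕ) : hat A N (jN A N) = iA A (jqModC ↥A) := by
  rw [hat_apply, coe_jN, coeffMap_jqModC, iA_jqModC]

variable (M q : ℕ) [NeZero M] [NeZero q]

theorem pi0_jN : pi0 A M q (jN A M) = jN A (M * q * q) := by
  apply Subtype.ext
  rw [coe_pi0, coe_jN, coe_jN]

/-- the expansions of `j` at the three cusps, as series over `A`. -/
def sS : Fin 3 → LaurentSeries ↥A
  | 0 => jqModC ↥A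
  | 1 => jqModC ↥A
  | 2 => qExpand ↥A q (qExpand ↥A q (jqModC ↥A))

/-- lower bounds for the ramification indices. -/
def ee : Fin 3 → ℕ
  | 0 => 1
  | 1 => q - 1
  | 2 => 1

/-- lower bounds for the residue degrees. -/
def ff : Fin 3 → ℕ
  | 0 => dedekindPsi M
  | 1 => dedekindPsi M
  | 2 => q * q * dedekindPsi M

variable {A M q}

namespace Data

variable (D : Data A M q)

theorem phi_jN (i : Fin 3) : D.phi i (jN A (M * q * q)) = iA A (sS A q i) := by
  rw [← pi0_jN]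
  fin_cases i
  · show D.phi 0 _ = iA A (jqModC ↥A)
    rw [phi0_pi0, hat_jN]
  · show D.phi 1 _ = iA A (jqModC ↥A)
    rw [phi1_pi0, hat_jN]
  · show D.phi 2 _ = iA A (qExpand ↥A q (qExpand ↥A q (jqModC ↥A)))
    rw [phi2_pi0, hat_jN, iA_qExpand, iA_qExpand]

include D in
theorem charP : CharP (IsLocalRing.ResidueField ↥A) q := Hecke.charP_residueField A D.hq D.hA

include D in
theorem natCast_M_ne_zero : ((M : ℕ) : (IsLocalRing.ResidueField ↥A)) ≠ 0 :=
  Hecke.natCast_residue_ne_zero A D.hq D.hA D.hqM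

include D in
/-- `j̄(t^q) = j̄(t)^q`. -/
theorem qExpand_jqModC : qExpand (IsLocalRing.ResidueField ↥A) q (jqModC (IsLocalRing.ResidueField ↥A)) =
    jqModC (IsLocalRing.ResidueField ↥A) ^ q := by
  haveI := D.charP
  haveI : Fact q.Prime := ⟨D.hq⟩
  rw [Hecke.pow_char_eq_qExpand (IsLocalRing.ResidueField ↥A) q, coeffMap_jqModC]

include D in
theorem qq_jqModC : qExpand (IsLocalRing.ResidueField ↥A) q
    (qExpand (IsLocalRing.ResidueField ↥A) q (jqModC (IsLocalRing.ResidueField ↥A))) =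
    jqModC (IsLocalRing.ResidueField ↥A) ^ (q * q) := by
  rw [D.qExpand_jqModC, map_pow, D.qExpand_jqModC, ← pow_mul]

include D in
theorem pA_sS_two : pA A (sS A q 2) = jqModC (IsLocalRing.ResidueField ↥A) ^ (q * q) := by
  show pA A (qExpand ↥A q (qExpand ↥A q (jqModC ↥A))) = _
  rw [pA_qExpand, pA_qExpand, pA_jqModC, D.qq_jqModC]

include D in
theorem transcendental_pA_sS (i : Fin 3) :
    Transcendental (IsLocalRing.ResidueField ↥A) (pA A (sS A q i)) := by
  fin_cases i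
  · show Transcendental (IsLocalRing.ResidueField ↥A) (pA A (jqModC ↥A))
    rw [pA_jqModC]; exact S28.transcendental_jqModC (IsLocalRing.ResidueField ↥A)
  · show Transcendental (IsLocalRing.ResidueField ↥A) (pA A (jqModC ↥A))
    rw [pA_jqModC]; exact S28.transcendental_jqModC (IsLocalRing.ResidueField ↥A)
  · show Transcendental (IsLocalRing.ResidueField ↥A) (pA A (sS A q 2))
    rw [D.pA_sS_two]
    exact (S28.transcendental_jqModC (IsLocalRing.ResidueField ↥A)).pow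
      (Nat.mul_pos D.hq.pos D.hq.pos)

include D in
/-- `q` is a uniformiser of `O0`. -/
theorem isUnif_OI : IsUnif (OI A) ((q : ℕ) : ↥(KI A)) := by
  have hq0 : ((q : ℕ) : Kbar) ≠ 0 := Nat.cast_ne_zero.2 D.hq.ne_zero
  have hvq : A.valuation ((q : ℕ) : Kbar) ≠ 0 := (Valuation.ne_zero_iff _).2 hq0
  refine ⟨Nat.cast_ne_zero.2 D.hq.ne_zero, ?_, ?_⟩
  · have h1 : ((q : ℕ) : ↥(OI A)) ∈ IsLocalRing.maximalIdeal ↥(OI A) := by
      rw [mem_maximalIdeal_OI_iff]
      exact valuation_q_lt_one A D.hq D.hA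
    exact ((OI A).coe_mem_nonunits_iff (a := ((q : ℕ) : ↥(OI A)))).2 h1
  · intro x hx
    have hx0 : (x : Kbar) ≠ 0 := fun h => hx (Subtype.ext h)
    obtain ⟨n, hn⟩ := exists_zpow' A D.hq D.hA x.2 hx0
    have hv : A.valuation ((x : Kbar) * ((q : ℕ) : Kbar) ^ (-n)) = 1 := by
      rw [map_mul, map_zpow₀, hn, ← zpow_add₀ hvq, add_neg_cancel, zpow_zero]
    have hc : ((x * ((q : ℕ) : ↥(KI A)) ^ (-n) : ↥(KI A)) : Kbar) =
        (x : Kbar) * ((q : ℕ) : Kbar) ^ (-n) := by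
      push_cast
      rfl
    refine ⟨-n, ?_, ?_⟩
    · rw [mem_OI, hc]
      exact (A.valuation_le_one_iff _).1 hv.le
    · rw [mem_OI, IntermediateField.coe_inv, hc]
      refine (A.valuation_le_one_iff _).1 ?_
      rw [map_inv₀, hv, inv_one]

include D in
/-- **(y-witnesses)** level `M` functions with integer coefficients. -/
theorem exists_wit : ∃ (u : Fin (dedekindPsi M) → F0 A M)
    (w : Fin (dedekindPsi M) → LaurentSeries ↥A), (∀ l, hat A M (u l) = iA A (w l)) ∧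
      (∀ l, pA A (w l) ∈ modularFunctionFieldFullC (IsLocalRing.ResidueField ↥A) M) ∧
      LinearIndependent ↥((IsLocalRing.ResidueField ↥A)⟮jqModC (IsLocalRing.ResidueField ↥A)⟯)
        (fun l => pA A (w l)) := by
  obtain ⟨z, hz, hlin⟩ := exists_intBasis (IsLocalRing.ResidueField ↥A) M D.natCast_M_ne_zero
  have h : ∀ l, pA A (coeffMap (Int.castRingHom ↥A) (z l)) =
      coeffMap (Int.castRingHom (IsLocalRing.ResidueField ↥A)) (z l) := by
    intro l
    rw [pA, coeffMap_coeffMap]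
    exact coeffMap_congr (RingHom.ext_int _ _) _
  refine ⟨fun l => ⟨coeffMap (Int.castRingHom ↥(KI A)) (z l), coeffMap_mem_FF ↥(KI A) (hz l)⟩,
    fun l => coeffMap (Int.castRingHom ↥A) (z l), fun l => ?_, fun l => ?_, ?_⟩
  · rw [hat_apply, iA, coeffMap_coeffMap, coeffMap_coeffMap]
    exact coeffMap_congr (RingHom.ext_int _ _) _
  · rw [h]
    exact coeffMap_mem_fullC _ (hz l)
  · rw [funext h]
    exact hlin

/-! ### reductions of the expansions of `j` -/

theorem red_j : Red A (iA A (jqModC ↥A)) (jqModC (IsLocalRing.ResidueField ↥A)) := by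
  have h := red_iA (A := A) (jqModC ↥A)
  rwa [pA_jqModC] at h

include D in
theorem red_qq_j : Red A (qExpand Kbar q (qExpand Kbar q (iA A (jqModC ↥A))))
    (jqModC (IsLocalRing.ResidueField ↥A) ^ (q * q)) := by
  have h := ((red_j (A := A)).qExpand q).qExpand q
  rwa [D.qq_jqModC] at h

theorem zeta_ne_zero : D.ζ ≠ 0 := D.hζ.ne_zero D.hq.ne_zero

theorem zeta_sub_one_mem_nonunits : D.ζ - 1 ∈ A.nonunits := by
  haveI := D.charP
  haveI : Fact q.Prime := ⟨D.hq⟩
  obtain ⟨h1, -⟩ := KS.zeta_mem A q D.hζ.pow_eq_one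
  have h2 := KS.residue_zeta A q D.hζ.pow_eq_one h1
  have h3 : IsLocalRing.residue ↥A (⟨D.ζ, h1⟩ - 1) = 0 := by rw [map_sub, h2, map_one, sub_self]
  rw [IsLocalRing.residue_eq_zero_iff] at h3
  exact (A.coe_mem_nonunits_iff (a := (⟨D.ζ, h1⟩ - 1 : ↥A))).2 h3

/-- the divided difference `(j(ζ t) - j(t)) / (ζ - 1)`. -/
def wJ : LaurentSeries Kbar :=
  HahnSeries.C (D.ζ - 1)⁻¹ * (S24.twist D.ζ D.zeta_ne_zero (iA A (jqModC ↥A)) - iA A (jqModC ↥A))

theorem red_wJ : Red A D.wJ (KS.theta (jqModC (IsLocalRing.ResidueField ↥A))) := by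
  haveI := D.charP
  haveI : Fact q.Prime := ⟨D.hq⟩
  obtain ⟨h1, h1'⟩ := KS.zeta_mem A q D.hζ.pow_eq_one
  have h2 := KS.residue_zeta A q D.hζ.pow_eq_one h1
  have hne : D.ζ ≠ 1 := D.hζ.ne_one D.hq.one_lt
  obtain ⟨hx, hr⟩ := red_j (A := A)
  refine ⟨KS.twist_sub_mem_gRing A D.zeta_ne_zero h1 h1' h2 hne hx, ?_⟩
  rw [← hr]
  exact KS.gRes_twist_sub A D.zeta_ne_zero h1 h1' h2 hne hx

theorem theta_j_ne_zero (k : Type*) [Field k] : KS.theta (jqModC k) ≠ 0 := by
  intro h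
  have h1 := congrArg (fun s => HahnSeries.coeff s (-1)) h
  simp only [KS.theta_coeff, coeff_jqModC_neg_one, HahnSeries.coeff_zero] at h1
  simp at h1

theorem twist_sub_eq : S24.twist D.ζ D.zeta_ne_zero (iA A (jqModC ↥A)) - iA A (jqModC ↥A) =
    HahnSeries.C (D.ζ - 1) * D.wJ := by
  have hne : D.ζ - 1 ≠ 0 := sub_ne_zero.2 (D.hζ.ne_one D.hq.one_lt)
  rw [wJ, ← mul_assoc, ← map_mul, mul_inv_cancel₀ hne, map_one, one_mul]

theorem red_twist_sub :
    Red A (S24.twist D.ζ D.zeta_ne_zero (iA A (jqModC ↥A)) - iA A (jqModC ↥A)) 0 := by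
  rw [D.twist_sub_eq]
  have h := (red_C_nonunit D.zeta_sub_one_mem_nonunits).mul D.red_wJ
  rwa [zero_mul] at h

theorem red_twist_j : Red A (S24.twist D.ζ D.zeta_ne_zero (iA A (jqModC ↥A)))
    (jqModC (IsLocalRing.ResidueField ↥A)) := by
  have h := red_add D.red_twist_sub (red_j (A := A))
  rwa [sub_add_cancel, zero_add] at h

theorem j_sub_pow_ne (k : Type*) [Field k] {n : ℕ} (hn : 2 ≤ n) : jqModC k - jqModC k ^ n ≠ 0 := by
  intro h
  have h1 := (transcendental_iff.1 (S28.transcendental_jqModC k))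
    (Polynomial.X - Polynomial.X ^ n) (by simpa using h)
  have h2 := congrArg (fun P => Polynomial.coeff P 1) h1
  simp only [Polynomial.coeff_sub, Polynomial.coeff_X_one, Polynomial.coeff_X_pow,
    Polynomial.coeff_zero] at h2
  rw [if_neg (by omega)] at h2
  simp at h2

theorem linInd_congr {k Λ κ : Type*} [Field k] [Field Λ] [Algebra k Λ] {x y : Λ} (h : x = y)
    {v : κ → Λ} (hv : LinearIndependent ↥(k⟮y⟯) v) : LinearIndependent ↥(k⟮x⟯) v := by
  subst h; exact hv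

theorem exists_s (i : Fin 3) : ∃ s : LaurentSeries ↥A, D.phi i (jN A (M * q * q)) = iA A s ∧
    Transcendental (IsLocalRing.ResidueField ↥A) (pA A s) ∧
    pA A s ∈ modularFunctionFieldFullC (IsLocalRing.ResidueField ↥A) M ∧
    ∃ (κ : Type) (_ : Fintype κ) (y : κ → F0 A (M * q * q)) (w : κ → LaurentSeries ↥A),
      Fintype.card κ = ff M q i ∧ (∀ l, D.phi i (y l) = iA A (w l)) ∧
      (∀ l, pA A (w l) ∈ modularFunctionFieldFullC (IsLocalRing.ResidueField ↥A) M) ∧
      LinearIndependent ↥((IsLocalRing.ResidueField ↥A)⟮pA A s⟯) (fun l => pA A (w l)) := by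
  obtain ⟨u, w, huw, hwT, hlin⟩ := D.exists_wit
  have hjT := jqModC_mem_full (IsLocalRing.ResidueField ↥A) M
  refine ⟨sS A q i, D.phi_jN i, D.transcendental_pA_sS i, ?_⟩
  fin_cases i
  · refine ⟨?_, Fin (dedekindPsi M), inferInstance, fun l => pi0 A M q (u l), w,
      Fintype.card_fin _, fun l => ?_, hwT, ?_⟩
    · show pA A (jqModC ↥A) ∈ _
      rw [pA_jqModC]; exact hjT
    · show D.phi 0 _ = _
      rw [phi0_pi0, huw]
    · exact linInd_congr (pA_jqModC A) hlin
  · refine ⟨?_, Fin (dedekindPsi M), inferInstance, fun l => pi0 A M q (u l), w,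
      Fintype.card_fin _, fun l => ?_, hwT, ?_⟩
    · show pA A (jqModC ↥A) ∈ _
      rw [pA_jqModC]; exact hjT
    · show D.phi 1 _ = _
      rw [phi1_pi0, huw]
    · exact linInd_congr (pA_jqModC A) hlin
  · refine ⟨?_, Fin (q * q) × Fin (dedekindPsi M), inferInstance,
      fun al => pi2 A M q (jN A M) ^ (al.1 : ℕ) * pi2 A M q (u al.2),
      fun al => jqModC ↥A ^ (al.1 : ℕ) * w al.2, ?_, fun al => ?_, fun al => ?_, ?_⟩
    · show pA A (sS A q 2) ∈ _
      rw [D.pA_sS_two]; exact pow_mem hjT _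
    · rw [Fintype.card_prod, Fintype.card_fin, Fintype.card_fin]
      rfl
    · show D.phi 2 _ = _
      rw [map_mul, map_pow, phi2_pi2, phi2_pi2, hat_jN, huw, map_mul, map_pow]
    · rw [map_mul, map_pow, pA_jqModC]
      exact mul_mem (pow_mem hjT _) (hwT _)
    · refine linInd_congr D.pA_sS_two ?_
      have h := linearIndependent_pow_mul
        (S28.transcendental_jqModC (IsLocalRing.ResidueField ↥A))
        (Nat.mul_pos D.hq.pos D.hq.pos) (fun l => pA A (w l)) hlin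
      have he : (fun al : Fin (q * q) × Fin (dedekindPsi M) =>
          pA A (jqModC ↥A ^ (al.1 : ℕ) * w al.2)) = fun al =>
          jqModC (IsLocalRing.ResidueField ↥A) ^ (al.1 : ℕ) * pA A (w al.2) := by
        funext al
        rw [map_mul, map_pow, pA_jqModC]
      rw [he]
      exact h

theorem phi_q (i : Fin 3) :
    D.phi i (algebraMap ↥(KI A) (F0 A (M * q * q)) ((q : ℕ) : ↥(KI A))) =
      HahnSeries.C ((q : ℕ) : Kbar) := by
  rw [phi_algebraMap]
  rfl

theorem exists_b_q (i : Fin 3) : ∃ b : F0 A (M * q * q), b ≠ 0 ∧ Red A (D.phi i b) 0 ∧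
    D.phi i (algebraMap ↥(KI A) (F0 A (M * q * q)) ((q : ℕ) : ↥(KI A)) / b ^ 1) ∈ gRing A := by
  have h0 : algebraMap ↥(KI A) (F0 A (M * q * q)) ((q : ℕ) : ↥(KI A)) ≠ 0 := by
    rw [Ne, map_eq_zero]
    exact Nat.cast_ne_zero.2 D.hq.ne_zero
  refine ⟨algebraMap ↥(KI A) (F0 A (M * q * q)) ((q : ℕ) : ↥(KI A)), h0, ?_, ?_⟩
  · rw [phi_q]
    exact red_C_nonunit D.hA
  · rw [pow_one, div_self h0, map_one]
    exact (gRing A).one_mem

theorem exists_b (i : Fin 3) : ∃ b : F0 A (M * q * q), b ≠ 0 ∧ Red A (D.phi i b) 0 ∧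
    D.phi i (algebraMap ↥(KI A) (F0 A (M * q * q)) ((q : ℕ) : ↥(KI A)) / b ^ ee q i) ∈ gRing A := by
  fin_cases i
  · exact D.exists_b_q 0
  · have hb : D.phi 1 (pi2 A M q (jN A M) - pi0 A M q (jN A M)) =
        HahnSeries.C (D.ζ - 1) * D.wJ := by
      rw [map_sub, phi1_pi2, phi1_pi0, hat_jN, ← D.twist_sub_eq]
    refine ⟨pi2 A M q (jN A M) - pi0 A M q (jN A M), ?_, ?_, ?_⟩
    · intro h0
      rw [h0, map_zero] at hb
      have hne : D.ζ - 1 ≠ 0 := sub_ne_zero.2 (D.hζ.ne_one D.hq.one_lt)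
      rcases mul_eq_zero.1 hb.symm with h1 | h1
      · exact hne ((map_eq_zero _).1 h1)
      · exact D.red_wJ.ne_zero (theta_j_ne_zero _) h1
    · show Red A (D.phi 1 _) 0
      rw [hb, ← D.twist_sub_eq]
      exact D.red_twist_sub
    · show D.phi 1 (_ / _ ^ (q - 1)) ∈ gRing A
      haveI := D.charP
      haveI : Fact q.Prime := ⟨D.hq⟩
      obtain ⟨ε, hε⟩ := KS.exists_unit_eps A q D.hζ
      have hq0 : ((q : ℕ) : Kbar) ≠ 0 := Nat.cast_ne_zero.2 D.hq.ne_zero
      have hCq : (HahnSeries.C ((q : ℕ) : Kbar) : LaurentSeries Kbar) ≠ 0 := by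
        rw [Ne, map_eq_zero]; exact hq0
      have hε0 : ((ε : ↥A) : Kbar) ≠ 0 := by
        intro h
        exact ε.ne_zero (Subtype.ext h)
      have hCε : (HahnSeries.C ((ε : ↥A) : Kbar) : LaurentSeries Kbar) ≠ 0 := by
        rw [Ne, map_eq_zero]; exact hε0
      have hw := (D.red_wJ.inv (theta_j_ne_zero _)).pow (q - 1)
      have hw0 : D.wJ ≠ 0 := D.red_wJ.ne_zero (theta_j_ne_zero _)
      have key : D.phi 1 (algebraMap ↥(KI A) (F0 A (M * q * q)) ((q : ℕ) : ↥(KI A)) /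
          (pi2 A M q (jN A M) - pi0 A M q (jN A M)) ^ (q - 1)) =
          HahnSeries.C (((ε⁻¹ : (↥A)ˣ) : ↥A) : Kbar) * D.wJ⁻¹ ^ (q - 1) := by
        have hinv : (((ε⁻¹ : (↥A)ˣ) : ↥A) : Kbar) = ((ε : ↥A) : Kbar)⁻¹ := by
          apply eq_inv_of_mul_eq_one_left
          exact congrArg Subtype.val (Units.inv_mul ε)
        rw [map_div₀, phi_q, map_pow, hb, mul_pow, ← map_pow, hε, map_mul, hinv, map_inv₀, inv_pow]
        field_simp
      rw [key]
      exact (gRing A).mul_mem ((C_mem_gRing_iff A _).2 (Subtype.mem _)) hw.1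
  · exact D.exists_b_q 2

theorem distinct (i j : Fin 3) (hij : i ≠ j) : ∃ z : F0 A (M * q * q), Red A (D.phi j z) 0 ∧
    ∃ r, r ≠ 0 ∧ Red A (D.phi i z) r := by
  have hqq : 2 ≤ q * q := by nlinarith [D.hq.two_le]
  have hq4 : 2 ≤ q * q * (q * q) := by nlinarith [D.hq.two_le]
  have hj := red_j (A := A)
  have hqqj := D.red_qq_j
  have htw := D.red_twist_j
  -- the three separating elements
  set b0 := pi2 A M q (jN A M) - pi0 A M q (jN A M) ^ (q * q) with hb0
  set b1 := pi2 A M q (jN A M) - pi0 A M q (jN A M) with hb1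
  set b2 := pi0 A M q (jN A M) - pi2 A M q (jN A M) ^ (q * q) with hb2
  have h00 : Red A (D.phi 0 b0) 0 := by
    rw [hb0, map_sub, map_pow, phi0_pi2, phi0_pi0, hat_jN]
    have h := red_sub hqqj (hj.pow (q * q))
    rwa [sub_self] at h
  have h10 : Red A (D.phi 1 b0) (jqModC _ - jqModC _ ^ (q * q)) := by
    rw [hb0, map_sub, map_pow, phi1_pi2, phi1_pi0, hat_jN]
    exact red_sub htw (hj.pow (q * q))
  have h20 : Red A (D.phi 2 b0) (jqModC _ - jqModC _ ^ (q * q * (q * q))) := by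
    rw [hb0, map_sub, map_pow, phi2_pi2, phi2_pi0, hat_jN]
    have h := red_sub hj (hqqj.pow (q * q))
    rwa [← pow_mul] at h
  have h01 : Red A (D.phi 0 b1) (-(jqModC _ - jqModC _ ^ (q * q))) := by
    rw [hb1, map_sub, phi0_pi2, phi0_pi0, hat_jN, neg_sub]
    exact red_sub hqqj hj
  have h11 : Red A (D.phi 1 b1) 0 := by
    rw [hb1, map_sub, phi1_pi2, phi1_pi0, hat_jN]
    exact D.red_twist_sub
  have h21 : Red A (D.phi 2 b1) (jqModC _ - jqModC _ ^ (q * q)) := by
    rw [hb1, map_sub, phi2_pi2, phi2_pi0, hat_jN]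
    exact red_sub hj hqqj
  have h02 : Red A (D.phi 0 b2) (jqModC _ - jqModC _ ^ (q * q * (q * q))) := by
    rw [hb2, map_sub, map_pow, phi0_pi2, phi0_pi0, hat_jN]
    have h := red_sub hj (hqqj.pow (q * q))
    rwa [← pow_mul] at h
  have h12 : Red A (D.phi 1 b2) (jqModC _ - jqModC _ ^ (q * q)) := by
    rw [hb2, map_sub, map_pow, phi1_pi2, phi1_pi0, hat_jN]
    exact red_sub hj (htw.pow (q * q))
  have h22 : Red A (D.phi 2 b2) 0 := by
    rw [hb2, map_sub, map_pow, phi2_pi2, phi2_pi0, hat_jN]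
    have h := red_sub hqqj (hj.pow (q * q))
    rwa [sub_self] at h
  have n1 := j_sub_pow_ne (IsLocalRing.ResidueField ↥A) hqq
  have n2 := j_sub_pow_ne (IsLocalRing.ResidueField ↥A) hq4
  fin_cases i <;> fin_cases j
  · exact absurd rfl hij
  · exact ⟨b1, h11, _, neg_ne_zero.2 n1, h01⟩
  · exact ⟨b2, h22, _, n2, h02⟩
  · exact ⟨b0, h00, _, n1, h10⟩
  · exact absurd rfl hij
  · exact ⟨b2, h22, _, n1, h12⟩
  · exact ⟨b0, h00, _, n2, h20⟩
  · exact ⟨b1, h11, _, n1, h21⟩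
  · exact absurd rfl hij

/-- **The series-level input of R-VAL.** -/
theorem genInput : GenInput A (algebraMap ↥(KI A) Kbar) D.phi (jN A (M * q * q))
    ((q : ℕ) : ↥(KI A)) (ee q) (ff M q)
    (modularFunctionFieldFullC (IsLocalRing.ResidueField ↥A) M) where
  gaussian := D.isGaussian_phi
  const := D.phi_algebraMap
  unif := D.isUnif_OI
  exists_s := D.exists_s
  exists_b := D.exists_b
  distinct := D.distinct

theorem genInput_W (i : Fin 3) : D.genInput.W i = D.Wv i := rfl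

end Data

end Fermat.Agent.S36R.Val
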