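import Fermat.Agent.S36R.AA.Conc
import Fermat.Agent.S36R.Val.Wit
import Fermat.Agent.Lib.Count.Main
import Fermat.Agent.Lib.Gamma0Cosets

/-!
# S36R/Val/Degree : `[F0 : K0(j)] ≤ ψ(N)` and `∑ e f = ψ(M q²)`
-/

set_option autoImplicit false
set_option linter.unusedSectionVars false

namespace Fermat.Agent.S36R.Val

open AlgebraicCurve ModularCurve Fermat.Agent.GAL Fermat.Agent.S24 IntermediateField
open Fermat.Agent.GAL.Tors.Dict Polynomial Fermat.Agent.S24.Degree

noncomputable section

section generic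

variable (K : Type) [Field K] [Algebra ℚ K] [CharZero K] (ι : K →+* ℂ)

include ι in
/-- the upper bound of the degree, over an arbitrary field of constants embedded in `ℂ`. -/
theorem finrank_jF_le (N : ℕ) [NeZero N] :
    Module.finrank K⟮Tors.Dict.jF K N⟯ (FF K N) ≤ dedekindPsi N := by
  have := degree_finite_gensF K N
  rw [← Lib.Count.card_quotient_Gamma0]
  refine (finrank_le_of_relations (Tors.Dict.jF K N)
    (Nat.card (Matrix.SpecialLinearGroup (Fin 2) ℤ ⧸ CongruenceSubgroup.Gamma0 N)) (gensF K N)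
    (jF_mem_A K N) (exists_div K N) fun a ha => ?_).2
  have ha' : (a : LaurentSeries K) ∈ goodSub K ι N :=
    Conc_AL_le_goodSub K ι N ((mem_A_iff K).mp ha)
  obtain ⟨p', hp'⟩ := degree_exists_relation K ι N (coeffEmb K jq) (degree_isConv_jK K ι)
    (degree_PsiFun_jK K ι) _ ha'
  refine ⟨fun i => ⟨aeval (Tors.Dict.jF K N) (p' i), aeval_mem_adjoin_singleton _ _⟩, ?_⟩
  exact relation_lift (FF K N) (Tors.Dict.jF K N) a p' hp'

end generic

theorem sum_ee_ff {M q : ℕ} (hq : q.Prime) (hqM : ¬ q ∣ M) :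
    ∑ i, ee q i * ff M q i = dedekindPsi (M * q * q) := by
  have hcop : Nat.Coprime M (q * q) := by
    have h1 : Nat.Coprime M q := ((Nat.Prime.coprime_iff_not_dvd hq).2 hqM).symm
    exact Nat.Coprime.mul_right h1 h1
  rw [mul_assoc, Lib.Gamma0Cosets.dedekindPsi_mul hcop]
  have h2 : dedekindPsi (q * q) = q * q + q := by
    have := Lib.Gamma0Cosets.dedekindPsi_prime_pow hq 1
    simpa [pow_two] using this
  rw [h2, Fin.sum_univ_three]
  show 1 * dedekindPsi M + (q - 1) * dedekindPsi M + 1 * (q * q * dedekindPsi M) = _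
  obtain ⟨r, rfl⟩ : ∃ r, q = r + 1 := ⟨q - 1, by have := hq.pos; omega⟩
  simp only [Nat.add_sub_cancel]
  ring

end

end Fermat.Agent.S36R.Val
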