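import Fermat.Agent.S36R.Val.VRing
import Fermat.Agent.S36R.Val.Abs.Gauss2

/-!
# S36R/Val : the valuation ring of a Gaussian embedding is a Gauss extension (generic fields)

`K` a field with `ι₀ : K →+* Kbar`, `F` a `K`-algebra (a field), `φ : F →+* Kbar((t))` Gaussian and
compatible with constants; `x : F` with `φ x = iA A s`, `s ∈ A((t))`, `s̄ = pA A s` transcendental
over the residue field `k` of `A`.
-/

set_option autoImplicit false

noncomputable section

namespace Fermat.Agent.S36R.Val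

open ModularCurve Fermat.Agent.S24 Fermat.Agent.GAL Fermat.Agent.GAL.Gauss
  Fermat.Agent.S36.StepA Polynomial IntermediateField

variable {A : ValuationSubring Kbar} {K F : Type*} [Field K] [Field F] [Algebra K F]
  (ι₀ : K →+* Kbar) {φ : F →+* LaurentSeries Kbar} (hφ : IsGaussian A φ)
  (hconst : ∀ a : K, φ (algebraMap K F a) = HahnSeries.C (ι₀ a))

include hconst in
/-- **Leaf W1a.** `vRing ∩ K = A ∩ K`. (`C_mem_gRing_iff`.) -/
theorem comap_vRing : (vRing φ hφ).comap (algebraMap K F) = A.comap ι₀ := by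
  ext a
  rw [ValuationSubring.mem_comap, ValuationSubring.mem_comap, mem_vRing, hconst,
    C_mem_gRing_iff]

/-- The polynomial over `A` attached to a polynomial over `K` with coefficients in `A ∩ K`. -/
def polyA (P : K[X]) (hP : ∀ n, P.coeff n ∈ A.comap ι₀) : (↥A)[X] :=
  ∑ n ∈ P.support, Polynomial.monomial n (⟨ι₀ (P.coeff n), hP n⟩ : ↥A)

/-- **Leaf W1b.** -/
theorem coeff_polyA (P : K[X]) (hP : ∀ n, P.coeff n ∈ A.comap ι₀) (n : ℕ) :
    ((polyA ι₀ P hP).coeff n : Kbar) = ι₀ (P.coeff n) := by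
  classical
  rw [polyA, Polynomial.finsetSum_coeff]
  simp only [Polynomial.coeff_monomial]
  rw [Finset.sum_ite_eq']
  split_ifs with hn
  · rfl
  · rw [Polynomial.notMem_support_iff.mp hn, map_zero]
    rfl

include hconst in
/-- **Leaf W1c.** `φ (P(x)) = iA (P^A(s))`, where `P^A(s) = eval₂ C s (polyA P)`. -/
theorem phi_aeval {x : F} {s : LaurentSeries ↥A} (hx : φ x = iA A s)
    (P : K[X]) (hP : ∀ n, P.coeff n ∈ A.comap ι₀) :
    φ (aeval x P) = iA A ((polyA ι₀ P hP).eval₂ HahnSeries.C s) := by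
  have hC : ∀ a : ↥A, iA A (HahnSeries.C a) = HahnSeries.C (a : Kbar) := by
    intro a
    rw [iA, HahnSeries.C_apply, HahnSeries.C_apply, coeffMap_single]
    rfl
  rw [polyA, Polynomial.eval₂_finsetSum, map_sum, Polynomial.aeval_def,
    Polynomial.eval₂_eq_sum, Polynomial.sum, map_sum]
  refine Finset.sum_congr rfl fun n _ => ?_
  rw [Polynomial.eval₂_monomial, map_mul, map_mul, map_pow, map_pow, hconst, hx, hC]

/-- **Leaf W1d.** `pA (P^A(s)) = P̄(s̄)`. -/
theorem pA_eval₂ (s : LaurentSeries ↥A) (Q : (↥A)[X]) :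
    pA A (Q.eval₂ HahnSeries.C s) =
      aeval (pA A s) (Q.map (IsLocalRing.residue ↥A)) := by
  have h1 := Polynomial.hom_eval₂ Q (HahnSeries.C : ↥A →+* LaurentSeries ↥A) (pA A) s
  have h2 : (pA A).comp (HahnSeries.C : ↥A →+* LaurentSeries ↥A) =
      (algebraMap (IsLocalRing.ResidueField ↥A)
        (LaurentSeries (IsLocalRing.ResidueField ↥A))).comp (IsLocalRing.residue ↥A) := by
    ext1 r
    simp only [RingHom.comp_apply]
    rw [algebraMap_laurentSeries_eq_single, pA, HahnSeries.C_apply, coeffMap_single]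
  rw [h2] at h1
  rw [aeval_def, eval₂_map]
  exact h1

include hconst in
/-- **Leaf W1.** PROOF: `comap_vRing`; `mem_vRing_of_eq_iA`; if `P(x)` is a nonunit then
`vRes = pA (P^A(s)) = P̄(s̄) = 0` (`vRes_eq_zero_iff`, `vRes_of_eq_iA`, `phi_aeval`, `pA_eval₂`), so
`P̄ = 0` by transcendence, i.e. all coefficients of `polyA P` are in the maximal ideal of `A`. -/
theorem isGaussExt_vRing {x : F} {s : LaurentSeries ↥A} (hx : φ x = iA A s)
    (hs : Transcendental (IsLocalRing.ResidueField ↥A) (pA A s)) :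
    IsGaussExt (A.comap ι₀) (vRing φ hφ) x := by
  refine ⟨comap_vRing ι₀ hφ hconst, mem_vRing_of_eq_iA hx, fun P hP h n => ?_⟩
  have hmem : aeval x P ∈ vRing φ hφ := mem_vRing_of_eq_iA (phi_aeval ι₀ hconst hx P hP)
  have h0 := (vRes_eq_zero_iff (⟨_, hmem⟩ : ↥(vRing φ hφ))).2 h
  rw [vRes_of_eq_iA (⟨_, hmem⟩ : ↥(vRing φ hφ)) (phi_aeval ι₀ hconst hx P hP), pA_eval₂] at h0
  have h1 := transcendental_iff.1 hs _ h0
  have h2 : IsLocalRing.residue ↥A ((polyA ι₀ P hP).coeff n) = 0 := by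
    rw [← Polynomial.coeff_map, h1, Polynomial.coeff_zero]
  rw [IsLocalRing.residue_eq_zero_iff, ← A.coe_mem_nonunits_iff, coeff_polyA] at h2
  rw [ValuationSubring.mem_nonunits_iff_or] at h2 ⊢
  rcases h2 with h2 | h2
  · left
    exact (map_eq_zero ι₀).1 h2
  · right
    rw [ValuationSubring.mem_comap, map_inv₀]
    exact h2

end Fermat.Agent.S36R.Val
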