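import Fermat.Agent.S36R.Val.GaussExt

/-!
# S36R/Val/Indep : residues of `vRing ∩ K(x)`; independence of integral series gives `IsIndep`
-/

set_option autoImplicit false

noncomputable section

namespace Fermat.Agent.S36R.Val

open ModularCurve Fermat.Agent.S24 Fermat.Agent.GAL Fermat.Agent.GAL.Gauss
  Fermat.Agent.S36.StepA Polynomial IntermediateField

variable {A : ValuationSubring Kbar} {K F : Type*} [Field K] [Field F] [Algebra K F]
  (ι₀ : K →+* Kbar) {φ : F →+* LaurentSeries Kbar} (hφ : IsGaussian A φ)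
  (hconst : ∀ a : K, φ (algebraMap K F a) = HahnSeries.C (ι₀ a))

include hconst in
/-- **Leaf W2a.** The residue of an element of `vRing ∩ K(x)` lies in `k(s̄)`.
PROOF: `IsGaussExt.exists_frac`: `r = P(x) / Q(x)`, `Q` primitive; `vRes r = P̄(s̄) / Q̄(s̄)`. -/
theorem vRes_mem_adjoin {x : F} {s : LaurentSeries ↥A} (hx : φ x = iA A s)
    (hs : Transcendental (IsLocalRing.ResidueField ↥A) (pA A s))
    (r : ↥(vRing φ hφ)) (hr : (r : F) ∈ K⟮x⟯) :
    vRes φ hφ r ∈ (IsLocalRing.ResidueField ↥A)⟮pA A s⟯ := by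
  have hG := isGaussExt_vRing ι₀ hφ hconst hx hs
  obtain ⟨P, Q, hP, hQ, hrPQ⟩ := hG.exists_frac hr r.2
  have hQ0 : aeval x Q ≠ 0 := hG.gauss2_aeval_ne_zero hQ
  have key : ∀ (T : K[X]) (hT : ∀ n, T.coeff n ∈ A.comap ι₀),
      vRes φ hφ ⟨aeval x T, hG.aeval_mem hT⟩ ∈ (IsLocalRing.ResidueField ↥A)⟮pA A s⟯ := by
    intro T hT
    rw [vRes_of_eq_iA (⟨aeval x T, hG.aeval_mem hT⟩ : ↥(vRing φ hφ))
      (phi_aeval ι₀ hconst hx T hT), pA_eval₂]
    exact IntermediateField.algebra_adjoin_le_adjoin _ _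
      (Polynomial.aeval_mem_adjoin_singleton _ _)
  have hmul : r * ⟨aeval x Q, hG.aeval_mem hQ.1⟩ = ⟨aeval x P, hG.aeval_mem hP⟩ := by
    apply Subtype.ext
    show (r : F) * aeval x Q = aeval x P
    rw [hrPQ, div_mul_cancel₀ _ hQ0]
  have hne : vRes φ hφ ⟨aeval x Q, hG.aeval_mem hQ.1⟩ ≠ 0 := by
    intro h0
    rw [vRes_eq_zero_iff, ValuationSubring.mem_nonunits_iff, hG.Gauss_valuation_aeval hQ] at h0
    exact lt_irrefl _ h0
  have h1 := congrArg (vRes φ hφ) hmul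
  rw [map_mul] at h1
  rw [eq_div_of_mul_eq hne h1]
  exact div_mem (key P hP) (key Q hQ.1)

include hconst in
/-- **Leaf W2.** Independence of a family of integral series over `k(s̄)` gives `IsIndep`.
PROOF: apply `vRes` to `∑ c l * y l ∈ nonunits`; `vRes (c l) ∈ k(s̄)` (`vRes_mem_adjoin`),
`vRes (y l) = pA (w l)`; linear independence gives `vRes (c l) = 0`, i.e. `c l` is a nonunit of
`vRing`, hence of its `comap`. -/
theorem isIndep_vRing {x : F} {s : LaurentSeries ↥A} (hx : φ x = iA A s)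
    (hs : Transcendental (IsLocalRing.ResidueField ↥A) (pA A s))
    {κ : Type*} [Fintype κ] (y : κ → F) (w : κ → LaurentSeries ↥A) (hy : ∀ l, φ (y l) = iA A (w l))
    (hw : LinearIndependent ↥((IsLocalRing.ResidueField ↥A)⟮pA A s⟯) (fun l => pA A (w l))) :
    IsIndep ((vRing φ hφ).comap (algebraMap K⟮x⟯ F)) (vRing φ hφ) y := by
  have hyW : ∀ l, y l ∈ vRing φ hφ := fun l => mem_vRing_of_eq_iA (hy l)
  refine ⟨hyW, fun c hc hsum l => ?_⟩
  have hcW : ∀ l, algebraMap K⟮x⟯ F (c l) ∈ vRing φ hφ := fun l => hc l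
  have hmem : ∀ l, vRes φ hφ ⟨algebraMap K⟮x⟯ F (c l), hcW l⟩ ∈
      (IsLocalRing.ResidueField ↥A)⟮pA A s⟯ := fun l =>
    vRes_mem_adjoin ι₀ hφ hconst hx hs ⟨algebraMap K⟮x⟯ F (c l), hcW l⟩ (c l).2
  have hS : ((∑ l, (⟨algebraMap K⟮x⟯ F (c l), hcW l⟩ : ↥(vRing φ hφ)) * ⟨y l, hyW l⟩ :
      ↥(vRing φ hφ)) : F) = ∑ l, algebraMap K⟮x⟯ F (c l) * y l := by
    rw [AddSubmonoidClass.coe_finsetSum]
    rfl
  have h0 : vRes φ hφ (∑ l, (⟨algebraMap K⟮x⟯ F (c l), hcW l⟩ : ↥(vRing φ hφ)) * ⟨y l, hyW l⟩)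
      = 0 := by
    rw [vRes_eq_zero_iff, hS]
    exact hsum
  rw [map_sum] at h0
  have h1 : ∑ l, (⟨_, hmem l⟩ : ↥((IsLocalRing.ResidueField ↥A)⟮pA A s⟯)) • pA A (w l) = 0 := by
    rw [← h0]
    refine Finset.sum_congr rfl fun l _ => ?_
    rw [map_mul, vRes_of_eq_iA (⟨y l, hyW l⟩ : ↥(vRing φ hφ)) (hy l)]
    rfl
  have h2 := Fintype.linearIndependent_iff.mp hw _ h1 l
  have h3 : vRes φ hφ ⟨algebraMap K⟮x⟯ F (c l), hcW l⟩ = 0 := congrArg Subtype.val h2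
  rw [vRes_eq_zero_iff, gauss2_mem_nonunits_iff_inv] at h3
  rw [gauss2_mem_nonunits_iff_inv]
  rcases h3 with h3 | h3
  · left
    exact (map_eq_zero (algebraMap K⟮x⟯ F)).mp h3
  · right
    intro h4
    apply h3
    have h5 : algebraMap K⟮x⟯ F (c l)⁻¹ ∈ vRing φ hφ := h4
    rwa [map_inv₀] at h5

end Fermat.Agent.S36R.Val
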