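import Fermat.Agent.S36R.Val.Degree
import Fermat.Agent.S36R.Val.Bridge
import Fermat.Agent.S36R.NormC.Int

/-!
# S36R/Val/Main : the (VAL) deliverables at level `M q²` for the official `NormC.Setup`

* `vertFam S : VertFam (O0 A) (q : K0 A) S.j S.W (ee q)`
* `vert, incomp, eW0, eW1, eW2, j_mem, j_inv_mem, O_mem, sat₀, sat₁, loc, sep` : the fields of `Deliver S`;
* `res0, res1, res2` : the residues of `S.W i` lie in `E k M` (the fields of `AA.ResOK S`).
-/

set_option autoImplicit false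
set_option linter.unusedSectionVars false

noncomputable section

namespace Fermat.Agent.S36R.Val

open ModularCurve Fermat.Agent.S24 Fermat.Agent.GAL Fermat.Agent.GAL.Gauss
  Fermat.Agent.S36.StepA Fermat.Agent.S36R.K0L Fermat.Agent.S36R.NormC IntermediateField

variable {A : ValuationSubring Kbar} {M q : ℕ} [NeZero M] [NeZero q]

namespace Data

variable (D : Data A M q)

include D in
theorem finrank_le : Module.finrank (↥(KI A))⟮jN A (M * q * q)⟯ (F0 A (M * q * q)) ≤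
    ∑ i, ee q i * ff M q i := by
  rw [sum_ee_ff D.hq D.hqM]
  exact finrank_jF_le (↥(KI A)) (iotaK0 A) (M * q * q)

theorem vertFam : VertFam (OI A) ((q : ℕ) : ↥(KI A)) (jN A (M * q * q)) D.Wv (ee q) :=
  D.genInput.vertFam (finiteDimensional_j0 A (M * q * q)) (isSeparable_j0 A (M * q * q))
    D.finrank_le

theorem gRes_mem (i : Fin 3) (y : F0 A (M * q * q)) (hy : D.phi i y ∈ gRing A) :
    gRes A ⟨D.phi i y, hy⟩ ∈ modularFunctionFieldFullC (IsLocalRing.ResidueField ↥A) M :=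
  D.genInput.vRes_mem (finiteDimensional_j0 A (M * q * q)) (isSeparable_j0 A (M * q * q))
    D.finrank_le i ⟨y, hy⟩

end Data

variable (S : Setup A M q)

/-- **R-VAL**: the three vertical valuation rings of level `M q²`. -/
theorem vertFam : VertFam (O0 A) ((q : ℕ) : ↥(K0 A)) S.j S.W (ee q) := by
  have h := (Data.ofSetup S).vertFam
  have hW : (Data.ofSetup S).Wv = S.W := funext (ofSetup_Wv S)
  rw [hW] at h
  exact h

theorem ee_le (hq : q.Prime) (i : Fin 3) : ee q i ≤ q - 1 := by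
  have := hq.two_le
  fin_cases i
  · show 1 ≤ q - 1
    omega
  · exact le_rfl
  · show 1 ≤ q - 1
    omega

theorem vert : Inj.Vert (q : O0 A) S.W (q - 1) := (vertFam S).good_vert (ee_le S.hq)

theorem incomp (i j : Fin 3) (hij : i ≠ j) : ¬ S.W i ≤ S.W j := (vertFam S).good_incomp i j hij

theorem eW0 (z : S.F) (hz : z ≠ 0) : ∃ x : ℤ, IsU (S.W 0) (z / (q : S.F) ^ x) :=
  (vertFam S).good_eW_one 0 rfl z hz

theorem eW1 (z : S.F) (hz : z ≠ 0) : ∃ x : ℤ, IsU (S.W 1) (z ^ (q - 1) / (q : S.F) ^ x) :=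
  (vertFam S).good_eW 1 z hz

theorem eW2 (z : S.F) (hz : z ≠ 0) : ∃ x : ℤ, IsU (S.W 2) (z / (q : S.F) ^ x) :=
  (vertFam S).good_eW_one 2 rfl z hz

theorem O_mem (a : O0 A) (i : Fin 3) : algebraMap (O0 A) S.F a ∈ S.W i :=
  (vertFam S).algebraMap_mem a i

theorem j_mem (i : Fin 3) : S.j ∈ S.W i := ((vertFam S).gauss i).mem

theorem j_inv_mem (i : Fin 3) : S.j⁻¹ ∈ S.W i := ((vertFam S).gauss i).self_inv_mem

theorem sat₀ (z : S.F) (hz : algebraMap (O0 A) S.F (q : O0 A) * z ∈ Bridge.RR (O0 A) S.j)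
    (hW : ∀ i, z ∈ S.W i) : z ∈ Bridge.RR (O0 A) S.j := by
  refine (vertFam S).sat z ?_ hW
  have : algebraMap (O0 A) S.F (q : O0 A) = algebraMap (K0 A) S.F ((q : ℕ) : ↥(K0 A)) := by
    rw [map_natCast, map_natCast]
  rwa [this] at hz

theorem sat₁ (z : S.F) (hz : algebraMap (O0 A) S.F (q : O0 A) * z ∈ Bridge.RR (O0 A) S.j⁻¹)
    (hW : ∀ i, z ∈ S.W i) : z ∈ Bridge.RR (O0 A) S.j⁻¹ := by
  refine (vertFam S).inv.sat z ?_ hW
  have : algebraMap (O0 A) S.F (q : O0 A) = algebraMap (K0 A) S.F ((q : ℕ) : ↥(K0 A)) := by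
    rw [map_natCast, map_natCast]
  rwa [this] at hz

theorem loc (i : Fin 3) (z : S.F) (hz : z ∈ S.W i) :
    ∃ r s : Bridge.RR (O0 A) S.j, (S.W i).valuation (s : S.F) = 1 ∧ z * s = r :=
  (vertFam S).loc i z hz

theorem loc₁ (i : Fin 3) (z : S.F) (hz : z ∈ S.W i) :
    ∃ r s : Bridge.RR (O0 A) S.j⁻¹, (S.W i).valuation (s : S.F) = 1 ∧ z * s = r :=
  (vertFam S).inv.loc i z hz

theorem sep (i j : Fin 3) (hij : i ≠ j) :
    ∃ x : Bridge.RR (O0 A) S.j, (S.W j).valuation (x : S.F) < 1 ∧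
      ¬ (S.W i).valuation (x : S.F) < 1 :=
  (vertFam S).sep i j hij

theorem sep₁ (i j : Fin 3) (hij : i ≠ j) :
    ∃ x : Bridge.RR (O0 A) S.j⁻¹, (S.W j).valuation (x : S.F) < 1 ∧
      ¬ (S.W i).valuation (x : S.F) < 1 :=
  (vertFam S).inv.sep i j hij

/-! ### the residue fields -/

theorem res0 (y : S.F) (hy : S.e0 y ∈ gRing A) :
    gRes A ⟨S.e0 y, hy⟩ ∈ modularFunctionFieldFullC (IsLocalRing.ResidueField ↥A) M := by
  have h := (Data.ofSetup S).gRes_mem 0 y (by rw [ofSetup_phi0]; exact hy)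
  simp only [ofSetup_phi0] at h
  exact h

theorem res1 (y : S.F) (hy : S.e1 y ∈ gRing A) :
    gRes A ⟨S.e1 y, hy⟩ ∈ modularFunctionFieldFullC (IsLocalRing.ResidueField ↥A) M := by
  have h := (Data.ofSetup S).gRes_mem 1 y (by rw [ofSetup_phi1]; exact hy)
  simp only [ofSetup_phi1] at h
  exact h

theorem res2 (y : S.F) (hy : S.e2 y ∈ gRing A) :
    gRes A ⟨S.e2 y, hy⟩ ∈ modularFunctionFieldFullC (IsLocalRing.ResidueField ↥A) M := by
  have h := (Data.ofSetup S).gRes_mem 2 y (by rw [ofSetup_phi2]; exact hy)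
  simp only [ofSetup_phi2] at h
  exact h

end Fermat.Agent.S36R.Val
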