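import Fermat.Agent.S36R.K0.Defs
import Fermat.Agent.S36R.Val.Abs.Defs

/-!
# S36R/Val : `q` is a uniformiser of `O0 A` (in the sense of `Val.IsUnif`)
-/

set_option autoImplicit false
set_option maxHeartbeats 400000

namespace Fermat.Agent.S36R.Val

open Fermat.Agent.S24

variable (A : ValuationSubring Kbar) {q : ℕ}

/-- `q` is a uniformiser of the discrete valuation subring `O0 A` of `K0 A`. -/
theorem isUnif_O0 (hq : q.Prime) (hA : A.LiesOverPrime q) : IsUnif (O0 A) ((q : ℕ) : K0 A) where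
  ne_zero := by exact_mod_cast hq.ne_zero
  mem := by
    have h1 : ((q : O0 A) : K0 A) ∈ (O0 A).nonunits := by
      rw [ValuationSubring.coe_mem_nonunits_iff, K0L.maximalIdeal_OI A hq hA]
      exact Ideal.mem_span_singleton_self _
    simpa using h1
  exists_zpow x hx := by
    have hx0 : (x : Kbar) ≠ 0 := fun h => hx (Subtype.ext h)
    obtain ⟨n, hn⟩ := K0L.exists_zpow' A hq hA x.2 hx0
    have hv0 : A.valuation (q : Kbar) ≠ 0 :=
      (Valuation.ne_zero_iff _).2 (by exact_mod_cast hq.ne_zero)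
    have h1 : A.valuation ((x : Kbar) * (q : Kbar) ^ (-n)) = 1 := by
      rw [map_mul, map_zpow₀, hn, ← zpow_add₀ hv0, add_neg_cancel, zpow_zero]
    have h2 : ((x * ((q : ℕ) : K0 A) ^ (-n) : K0 A) : Kbar) = (x : Kbar) * (q : Kbar) ^ (-n) := by
      have := map_zpow₀ (algebraMap (K0 A) Kbar) ((q : ℕ) : K0 A) (-n)
      rw [map_natCast] at this
      rw [← this]
      rfl
    refine ⟨-n, ?_, ?_⟩
    · rw [mem_O0, h2, ← A.valuation_le_one_iff, h1]
    · have h3 : (((x * ((q : ℕ) : K0 A) ^ (-n))⁻¹ : K0 A) : Kbar) =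
          ((x : Kbar) * (q : Kbar) ^ (-n))⁻¹ := by
        rw [← h2]; rfl
      rw [mem_O0, h3, ← A.valuation_le_one_iff, map_inv₀, h1, inv_one]

end Fermat.Agent.S36R.Val
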