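import Fermat.Agent.S36.StepA.Near

/-!
# S36R/Val : the valuation ring attached to a Gaussian embedding `φ : F → Kbar((t))`

`A` a valuation subring of `Kbar`, `gRing A ⊆ Kbar((t))` the Gauss ring, `gRes A` its residue map
to `k((t))`.  A ring homomorphism `φ : F → Kbar((t))` from a field is *Gaussian* if every nonzero
value is `Normable` (a constant times a Gauss unit).  Then
* `vRing φ hφ : ValuationSubring F` is `φ⁻¹ (gRing A)`,
* `vRes φ hφ : vRing φ hφ →+* k((t))` is `gRes A ∘ φ`; its kernel is the set of nonunits.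
-/

set_option autoImplicit false

noncomputable section

namespace Fermat.Agent.S36R.Val

open ModularCurve Fermat.Agent.S24 Fermat.Agent.GAL Fermat.Agent.GAL.Gauss
  Fermat.Agent.S36.StepA

variable (A : ValuationSubring Kbar) {F : Type*} [Field F]

/-- every nonzero value of `φ` is a constant times a Gauss unit. -/
def IsGaussian (φ : F →+* LaurentSeries Kbar) : Prop := ∀ y : F, y ≠ 0 → Normable A (φ y)

variable {A}

/-- normal form of a normable series. -/
theorem exists_normalForm {s : LaurentSeries Kbar} (hs : Normable A s) :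
    ∃ (c : Kbar) (u : ↥(gRing A)), c ≠ 0 ∧ gRes A u ≠ 0 ∧ s = HahnSeries.C c * (u : LaurentSeries Kbar) := by
  obtain ⟨c, hc, h, hres⟩ := hs
  refine ⟨c⁻¹, ⟨_, h⟩, inv_ne_zero hc, hres, ?_⟩
  rw [← mul_assoc, ← map_mul, inv_mul_cancel₀ hc, map_one, one_mul]

theorem IsGaussian.comp {F' : Type*} [Field F'] {φ : F →+* LaurentSeries Kbar}
    (hφ : IsGaussian A φ) (f : F' →+* F) : IsGaussian A (φ.comp f) := fun y hy =>
  hφ (f y) ((map_ne_zero f).2 hy)

/-- the valuation ring `φ⁻¹ (gRing A)`. -/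
def vRing (φ : F →+* LaurentSeries Kbar) (hφ : IsGaussian A φ) : ValuationSubring F where
  __ := (gRing A).comap φ
  mem_or_inv_mem' x := by
    by_cases hx : x = 0
    · left; subst hx; exact ((gRing A).comap φ).zero_mem
    obtain ⟨c, u, hc, hu, h⟩ := exists_normalForm (hφ x hx)
    rcases A.mem_or_inv_mem c with hcA | hcA
    · left
      show φ x ∈ gRing A
      rw [h]
      exact (C_mul_unit_mem_iff A c u hu).2 hcA
    · right
      show φ x⁻¹ ∈ gRing A
      rw [map_inv₀, h, mul_inv, ← map_inv₀]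
      exact (gRing A).mul_mem ((C_mem_gRing_iff A _).2 hcA) (inv_mem_gRing_of_gRes_ne_zero A u hu)

theorem mem_vRing {φ : F →+* LaurentSeries Kbar} {hφ : IsGaussian A φ} {x : F} :
    x ∈ vRing φ hφ ↔ φ x ∈ gRing A := Iff.rfl

/-- the residue map `gRes A ∘ φ`. -/
def vRes (φ : F →+* LaurentSeries Kbar) (hφ : IsGaussian A φ) :
    ↥(vRing φ hφ) →+* LaurentSeries (IsLocalRing.ResidueField ↥A) :=
  (gRes A).comp (φ.restrict (vRing φ hφ) (gRing A) fun _ hx => hx)

theorem vRes_apply {φ : F →+* LaurentSeries Kbar} {hφ : IsGaussian A φ} (x : ↥(vRing φ hφ)) :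
    vRes φ hφ x = gRes A ⟨φ x, x.2⟩ := rfl

theorem vRes_eq_zero_iff {φ : F →+* LaurentSeries Kbar} {hφ : IsGaussian A φ}
    (x : ↥(vRing φ hφ)) : vRes φ hφ x = 0 ↔ (x : F) ∈ (vRing φ hφ).nonunits := by
  rw [ValuationSubring.coe_mem_nonunits_iff, IsLocalRing.mem_maximalIdeal, mem_nonunits_iff]
  constructor
  · intro h hu
    have := hu.map (vRes φ hφ)
    rw [h] at this
    exact not_isUnit_zero this
  · intro h
    by_contra hne
    apply h
    have hinv : (φ x)⁻¹ ∈ gRing A := inv_mem_gRing_of_gRes_ne_zero A ⟨φ x, x.2⟩ hne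
    have hx0 : (x : F) ≠ 0 := by
      intro h0
      apply hne
      have : x = 0 := Subtype.ext h0
      rw [this, map_zero]
    refine isUnit_iff_exists_inv.2 ⟨⟨(x : F)⁻¹, ?_⟩, Subtype.ext (mul_inv_cancel₀ hx0)⟩
    show φ (x : F)⁻¹ ∈ gRing A
    rw [map_inv₀]
    exact hinv

/-- membership in terms of the normal form. -/
theorem mem_vRing_iff_of_eq {φ : F →+* LaurentSeries Kbar} {hφ : IsGaussian A φ} {x : F}
    {c : Kbar} {u : ↥(gRing A)} (hu : gRes A u ≠ 0)
    (h : φ x = HahnSeries.C c * (u : LaurentSeries Kbar)) : x ∈ vRing φ hφ ↔ c ∈ A := by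
  rw [mem_vRing, h]
  exact C_mul_unit_mem_iff A c u hu

/-- nonunits in terms of the normal form. -/
theorem mem_nonunits_iff_of_eq {φ : F →+* LaurentSeries Kbar} {hφ : IsGaussian A φ} {x : F}
    {c : Kbar} {u : ↥(gRing A)} (hu : gRes A u ≠ 0)
    (h : φ x = HahnSeries.C c * (u : LaurentSeries Kbar)) :
    x ∈ (vRing φ hφ).nonunits ↔ c ∈ A.nonunits := by
  constructor
  · intro hx
    have hxm : x ∈ vRing φ hφ := (vRing φ hφ).nonunits_subset hx
    have hc : c ∈ A := (mem_vRing_iff_of_eq hu h).1 hxm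
    have h0 := (vRes_eq_zero_iff (⟨x, hxm⟩ : ↥(vRing φ hφ))).2 hx
    rw [vRes_apply] at h0
    have h1 : (⟨φ x, hxm⟩ : ↥(gRing A)) = ⟨HahnSeries.C c, (C_mem_gRing_iff A c).2 hc⟩ * u :=
      Subtype.ext h
    rw [h1, map_mul, gRes_C A ⟨c, hc⟩] at h0
    have h2 := (mul_eq_zero.1 h0).resolve_right hu
    have h3 : IsLocalRing.residue ↥A ⟨c, hc⟩ = 0 := by
      have := congrArg (fun s => HahnSeries.coeff s 0) h2
      simpa using this
    rw [IsLocalRing.residue_eq_zero_iff] at h3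
    exact (A.coe_mem_nonunits_iff (a := ⟨c, hc⟩)).2 h3
  · intro hc
    have hcA : c ∈ A := A.nonunits_subset hc
    have hxm : x ∈ vRing φ hφ := (mem_vRing_iff_of_eq hu h).2 hcA
    refine (vRes_eq_zero_iff (⟨x, hxm⟩ : ↥(vRing φ hφ))).1 ?_
    rw [vRes_apply]
    have h1 : (⟨φ x, hxm⟩ : ↥(gRing A)) = ⟨HahnSeries.C c, (C_mem_gRing_iff A c).2 hcA⟩ * u :=
      Subtype.ext h
    rw [h1, map_mul, gRes_C A ⟨c, hcA⟩]
    have h3 : IsLocalRing.residue ↥A ⟨c, hcA⟩ = 0 := by
      rw [IsLocalRing.residue_eq_zero_iff]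
      exact (A.coe_mem_nonunits_iff (a := ⟨c, hcA⟩)).1 hc
    rw [h3, map_zero, zero_mul]

/-- an element whose image is an honest `A`-integral series. -/
theorem mem_vRing_of_eq_iA {φ : F →+* LaurentSeries Kbar} {hφ : IsGaussian A φ} {x : F}
    {z : LaurentSeries ↥A} (h : φ x = iA A z) : x ∈ vRing φ hφ := by
  rw [mem_vRing, h]
  exact iA_mem_gRing A z

theorem vRes_of_eq_iA {φ : F →+* LaurentSeries Kbar} {hφ : IsGaussian A φ} (x : ↥(vRing φ hφ))
    {z : LaurentSeries ↥A} (h : φ x = iA A z) : vRes φ hφ x = pA A z := by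
  rw [vRes_apply]
  exact gRes_of_eq_iA A _ z h

end Fermat.Agent.S36R.Val
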